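import Fermat.Agent.PrimesMinusOne.TotientSum
import Mathlib.NumberTheory.ArithmeticFunction.Moebius
import Mathlib.NumberTheory.ArithmeticFunction.Misc
import Mathlib.NumberTheory.EulerProduct.Basic

/-!
# `∑_{e ≤ N} μ ² e / φ e = log N + O (1)`

`n μ ² n / φ n = ∑_{d ∣ n} g d` for a multiplicative `g` with `∑ |g d| / d (1 + log d) < ∞` and
`∑ g d / d = 1`, every local factor being `1`.
-/

set_option autoImplicit false

noncomputable section

namespace FA.MontgomeryHooley

open Finset Filter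
open FA.PrimesMinusOne (divisorWeight)
open scoped Topology ArithmeticFunction.Moebius ArithmeticFunction.zeta

theorem divisorWeight_mul_coprime {m n : ℕ} (h : m.Coprime n) :
    divisorWeight (m * n) = divisorWeight m * divisorWeight n := by
  unfold divisorWeight
  by_cases hm : Squarefree m <;> by_cases hn : Squarefree n <;>
    simp only [Nat.squarefree_mul_iff, hm, hn, and_true, and_false, if_true, if_false,
      mul_zero, zero_mul, Nat.totient_mul h]
  rw [if_pos h]
  push_cast
  rw [← mul_inv]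
  congr 1
  ring

/-- `n / φ n` at squarefree `n`, else `0`. -/
def sqfRatio : ArithmeticFunction ℝ :=
  ⟨fun n => (n : ℝ) ^ 2 * divisorWeight n, by simp⟩

theorem sqfRatio_apply (n : ℕ) : sqfRatio n = (n : ℝ) ^ 2 * divisorWeight n := rfl

theorem isMultiplicative_sqfRatio : sqfRatio.IsMultiplicative := by
  refine ⟨by simp [sqfRatio_apply, divisorWeight], fun {m n} h => ?_⟩
  rw [sqfRatio_apply, sqfRatio_apply, sqfRatio_apply, divisorWeight_mul_coprime h, Nat.cast_mul]
  ring

/-- `g`. -/
def localCorr : ArithmeticFunction ℝ := (μ : ArithmeticFunction ℝ) * sqfRatio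

theorem isMultiplicative_localCorr : localCorr.IsMultiplicative :=
  ArithmeticFunction.isMultiplicative_moebius.intCast.mul isMultiplicative_sqfRatio

theorem zeta_mul_localCorr : (ζ : ArithmeticFunction ℝ) * localCorr = sqfRatio := by
  rw [localCorr, ← mul_assoc, ArithmeticFunction.coe_zeta_mul_coe_moebius, one_mul]

theorem sqfRatio_prime_pow {p : ℕ} (hp : p.Prime) (k : ℕ) :
    sqfRatio (p ^ k) = if k = 0 then 1 else if k = 1 then (p : ℝ) / ((p : ℝ) - 1) else 0 := by
  rcases (show k = 0 ∨ k = 1 ∨ 2 ≤ k by omega) with rfl | rfl | hk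
  · simp [sqfRatio_apply, divisorWeight]
  · rw [pow_one, sqfRatio_apply, divisorWeight, if_pos hp.squarefree, if_neg one_ne_zero,
      if_pos rfl, Nat.totient_prime hp, Nat.cast_sub hp.one_le]
    have h0 : (p : ℝ) ≠ 0 := Nat.cast_ne_zero.2 hp.ne_zero
    push_cast
    field_simp
  · have hns : ¬ Squarefree (p ^ k) := fun h =>
      hp.ne_one (Nat.isUnit_iff.1 (h p ((pow_two p) ▸ pow_dvd_pow p hk)))
    rw [sqfRatio_apply, divisorWeight, if_neg hns, mul_zero, if_neg (by omega), if_neg (by omega)]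

theorem localCorr_prime_pow {p : ℕ} (hp : p.Prime) (k : ℕ) :
    localCorr (p ^ k) = if k = 0 then 1 else if k = 1 then 1 / ((p : ℝ) - 1)
      else if k = 2 then -((p : ℝ) / ((p : ℝ) - 1)) else 0 := by
  have hp1 : (p : ℝ) - 1 ≠ 0 := sub_ne_zero.2 (Nat.cast_ne_one.2 hp.ne_one)
  rcases k with _ | k
  · simp [isMultiplicative_localCorr.map_one]
  rw [localCorr, ArithmeticFunction.mul_apply,
    Nat.sum_divisorsAntidiagonal (fun a b => (μ : ArithmeticFunction ℝ) a * sqfRatio b),
    Nat.sum_divisors_prime_pow hp, ← sum_subset (show range 2 ⊆ range (k + 1 + 1) by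
      simp only [range_subset_range]; omega) fun i _ hi => by
      rw [mem_range, not_lt] at hi
      rw [ArithmeticFunction.intCoe_apply, ArithmeticFunction.moebius_apply_prime_pow hp (by omega),
        if_neg (by omega), Int.cast_zero, zero_mul]]
  rw [sum_range_succ, sum_range_one, pow_zero, Nat.div_one, pow_one,
    ArithmeticFunction.intCoe_apply, ArithmeticFunction.intCoe_apply,
    ArithmeticFunction.moebius_apply_one, ArithmeticFunction.moebius_apply_prime hp,
    show p ^ (k + 1) / p = p ^ k by rw [pow_succ, Nat.mul_div_cancel _ hp.pos],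
    sqfRatio_prime_pow hp, sqfRatio_prime_pow hp, if_neg k.succ_ne_zero, if_neg k.succ_ne_zero]
  rcases (show k = 0 ∨ k = 1 ∨ 2 ≤ k by omega) with rfl | rfl | hk
  · simp only [zero_add, if_pos]
    push_cast
    field_simp
    ring
  · norm_num
  · rw [if_neg (by omega), if_neg (by omega), if_neg (by omega), if_neg (by omega),
      if_neg (by omega)]
    simp

/-- `|g n| / n ^ (3/4)`. -/
def corrBound (n : ℕ) : ℝ := |localCorr n| / (n : ℝ) ^ (3 / 4 : ℝ)

theorem summable_corrBound : Summable corrBound := by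
  have h0 : ∀ n, 0 ≤ corrBound n := fun n => by unfold corrBound; positivity
  have hmul : ∀ {m n : ℕ}, m.Coprime n → corrBound (m * n) = corrBound m * corrBound n :=
    fun {m n} h => by
      rw [corrBound, isMultiplicative_localCorr.map_mul_of_coprime h, abs_mul, Nat.cast_mul,
        Real.mul_rpow (Nat.cast_nonneg m) (Nat.cast_nonneg n), mul_div_mul_comm]
      rfl
  have hone : corrBound 1 = 1 := by
    simp [corrBound, isMultiplicative_localCorr.map_one]
  have hS : Summable fun n : ℕ => 1 / (n : ℝ) ^ (3 / 2 : ℝ) :=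
    Real.summable_one_div_nat_rpow.2 (by norm_num)
  have hvan : ∀ {p : ℕ}, p.Prime → ∀ k, k ∉ range 3 → corrBound (p ^ k) = 0 := fun {p} hp k hk => by
    rw [mem_range, not_lt] at hk
    rw [corrBound, localCorr_prime_pow hp, if_neg (by omega), if_neg (by omega),
      if_neg (by omega), abs_zero, zero_div]
  have hfac : ∀ {p : ℕ}, p.Prime →
      ∑' k, corrBound (p ^ k) ≤ Real.exp (4 * (1 / (p : ℝ) ^ (3 / 2 : ℝ))) := fun {p} hp => by
    rw [tsum_eq_sum (s := range 3) (hvan hp), sum_range_succ, sum_range_succ, sum_range_one,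
      pow_zero, hone]
    refine le_trans ?_ (Real.add_one_le_exp _)
    have hp2 : (2 : ℝ) ≤ p := by exact_mod_cast hp.two_le
    have hp0 : (0 : ℝ) < p := by linarith
    have hinv : (p : ℝ) / ((p : ℝ) - 1) ≤ 2 := by
      rw [div_le_iff₀ (by linarith)]
      linarith
    have e1 : corrBound (p ^ 1) ≤ 2 * (1 / (p : ℝ) ^ (3 / 2 : ℝ)) := by
      rw [corrBound, localCorr_prime_pow hp, if_neg one_ne_zero, if_pos rfl, pow_one,
        abs_of_nonneg (one_div_nonneg.2 (by linarith)), div_div, ← div_eq_mul_one_div,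
        div_le_div_iff₀ (mul_pos (by linarith) (Real.rpow_pos_of_pos hp0 _))
          (Real.rpow_pos_of_pos hp0 _), one_mul]
      refine (Real.rpow_le_rpow_of_exponent_le (by linarith)
        (show (3 / 2 : ℝ) ≤ 1 + 3 / 4 by norm_num)).trans ?_
      rw [Real.rpow_add hp0, Real.rpow_one, ← mul_assoc]
      exact mul_le_mul_of_nonneg_right (by linarith) (Real.rpow_nonneg hp0.le _)
    have e2 : corrBound (p ^ 2) ≤ 2 * (1 / (p : ℝ) ^ (3 / 2 : ℝ)) := by
      rw [corrBound, localCorr_prime_pow hp, if_neg two_ne_zero, if_neg (by norm_num), if_pos rfl,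
        abs_neg, abs_of_nonneg (div_nonneg hp0.le (by linarith)), Nat.cast_pow,
        ← Real.rpow_natCast (p : ℝ) 2, ← Real.rpow_mul hp0.le, ← div_eq_mul_one_div,
        show ((2 : ℕ) : ℝ) * (3 / 4) = 3 / 2 by norm_num]
      exact div_le_div_of_nonneg_right hinv (Real.rpow_nonneg hp0.le _)
    linarith
  refine summable_of_sum_range_le
    (c := Real.exp (4 * ∑' n : ℕ, 1 / (n : ℝ) ^ (3 / 2 : ℝ))) h0 fun N => ?_
  have hsum : ∀ {p : ℕ}, p.Prime → Summable fun k : ℕ => ‖corrBound (p ^ k)‖ := fun {p} hp =>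
    summable_of_ne_finset_zero (s := range 3) fun k hk => by rw [hvan hp k hk, norm_zero]
  obtain ⟨hs1, hs2⟩ := EulerProduct.summable_and_hasSum_factoredNumbers_prod_filter_prime_tsum
    hone hmul hsum (range N)
  have hle : ∑ n ∈ range N, corrBound n ≤
      ∑' m : Nat.factoredNumbers (range N), corrBound m := by
    rw [← sum_filter_of_ne (p := fun n : ℕ => n ≠ 0) fun n _ hn h => hn (by
      rw [h, corrBound, ArithmeticFunction.map_zero, abs_zero, zero_div])]
    have hmem : ∀ n ∈ (range N).filter (fun n : ℕ => n ≠ 0), n ∈ Nat.factoredNumbers (range N) :=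
      fun n hn => by
        rw [mem_filter, mem_range] at hn
        exact Nat.mem_factoredNumbers'.2 fun p hp hpn =>
          mem_range.2 ((Nat.le_of_dvd (Nat.pos_of_ne_zero hn.2) hpn).trans_lt hn.1)
    rw [← sum_subtype_of_mem (p := (· ∈ Nat.factoredNumbers (range N))) (fun n => corrBound n) hmem]
    exact hs2.summable.sum_le_tsum _ fun m _ => h0 _
  refine hle.trans (hs2.tsum_eq.le.trans ?_)
  refine (prod_le_prod (fun p _ => tsum_nonneg fun k => h0 _)
    fun p hp => hfac (mem_filter.1 hp).2).trans ?_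
  rw [← Real.exp_sum, ← mul_sum, Real.exp_le_exp]
  exact mul_le_mul_of_nonneg_left (hS.sum_le_tsum _ fun n _ => by positivity) (by norm_num)

theorem abs_localCorr_div_le (d : ℕ) :
    |localCorr d / d| * (1 + Real.log d) ≤ 5 * corrBound d := by
  rcases Nat.eq_zero_or_pos d with rfl | hd
  · simp [corrBound]
  have hd0 : (0 : ℝ) < d := Nat.cast_pos.2 hd
  have hd1 : (1 : ℝ) ≤ d := Nat.one_le_cast.2 hd
  have h1 := Real.log_le_rpow_div hd0.le (show (0 : ℝ) < 1 / 4 by norm_num)
  have h2 : 1 + Real.log d ≤ 5 * (d : ℝ) ^ (1 / 4 : ℝ) := by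
    linarith [Real.one_le_rpow hd1 (show (0 : ℝ) ≤ 1 / 4 by norm_num)]
  rw [corrBound, abs_div, Nat.abs_cast]
  refine (mul_le_mul_of_nonneg_left h2 (by positivity)).trans (le_of_eq ?_)
  have e : (d : ℝ) ^ (3 / 4 : ℝ) * (d : ℝ) ^ (1 / 4 : ℝ) = d := by
    rw [← Real.rpow_add hd0]
    norm_num
  field_simp
  linear_combination |localCorr d| * e

theorem summable_localCorr_log :
    Summable fun d : ℕ => |localCorr d / d| * (1 + Real.log d) :=
  Summable.of_nonneg_of_le
    (fun d => mul_nonneg (abs_nonneg _) (by linarith [Real.log_natCast_nonneg d]))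
    abs_localCorr_div_le (summable_corrBound.mul_left 5)

theorem summable_localCorr_div : Summable fun d : ℕ => |localCorr d / d| :=
  Summable.of_nonneg_of_le (fun _ => abs_nonneg _) (fun d => le_mul_of_one_le_right (abs_nonneg _)
    (by linarith [Real.log_natCast_nonneg d])) summable_localCorr_log

/-- **`∑ g d / d = 1`.** -/
theorem tsum_localCorr_div : ∑' d : ℕ, localCorr d / d = 1 := by
  have h := EulerProduct.eulerProduct_hasProd (f := fun n : ℕ => localCorr n / n)
    (by simp [isMultiplicative_localCorr.map_one])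
    (fun {m n} h => by
      rw [isMultiplicative_localCorr.map_mul_of_coprime h, Nat.cast_mul, mul_div_mul_comm])
    (summable_localCorr_div.congr fun d => (Real.norm_eq_abs _).symm) (by simp)
  have hloc : ∀ p : Nat.Primes,
      ∑' e : ℕ, localCorr ((p : ℕ) ^ e) / (((p : ℕ) ^ e : ℕ) : ℝ) = 1 := fun p => by
    rw [tsum_eq_sum (s := range 3) fun k hk => by
      rw [mem_range, not_lt] at hk
      rw [localCorr_prime_pow p.2, if_neg (by omega), if_neg (by omega), if_neg (by omega),
        zero_div]]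
    rw [sum_range_succ, sum_range_succ, sum_range_one, localCorr_prime_pow p.2,
      localCorr_prime_pow p.2, localCorr_prime_pow p.2]
    have hp0 : ((p : ℕ) : ℝ) ≠ 0 := Nat.cast_ne_zero.2 p.2.ne_zero
    have hp1 : ((p : ℕ) : ℝ) - 1 ≠ 0 := sub_ne_zero.2 (Nat.cast_ne_one.2 p.2.ne_one)
    norm_num
    field_simp
    ring
  simp only [hloc] at h
  exact h.unique hasProd_one

theorem sqfRatio_div_eq (N : ℕ) : ∑ e ∈ Icc 1 N, sqfRatio e / e =
    ∑ d ∈ Icc 1 N, localCorr d / d * (harmonic (N / d) : ℝ) := by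
  have hI : ∀ M : ℕ, Icc 1 M = Ioc 0 M := fun M => by
    ext
    simp only [mem_Icc, mem_Ioc]
    omega
  obtain ⟨u, hu⟩ : ∃ u : ArithmeticFunction ℝ, u = ⟨fun n => localCorr n / n, by simp⟩ := ⟨_, rfl⟩
  obtain ⟨v, hv⟩ : ∃ v : ArithmeticFunction ℝ, v = ⟨fun n => (n : ℝ)⁻¹, by simp⟩ := ⟨_, rfl⟩
  have hcu : ∀ n : ℕ, u n = localCorr n / n := fun n => by rw [hu]; rfl
  have hcv : ∀ n : ℕ, v n = (n : ℝ)⁻¹ := fun n => by rw [hv]; rfl
  have hmul : ∀ n, (u * v) n = sqfRatio n / n := fun n => by
    rw [← zeta_mul_localCorr, mul_comm (ζ : ArithmeticFunction ℝ), ArithmeticFunction.mul_apply,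
      ArithmeticFunction.mul_apply, sum_div]
    refine sum_congr rfl fun x hx => ?_
    obtain ⟨hxn, hn⟩ := Nat.mem_divisorsAntidiagonal.1 hx
    rw [hcu, hcv, ArithmeticFunction.natCoe_apply, ArithmeticFunction.zeta_apply_ne
      (fun h => hn (by rw [← hxn, h, mul_zero])), ← hxn]
    push_cast
    rw [div_eq_mul_inv, div_eq_mul_inv, mul_one, mul_inv, mul_assoc]
  rw [hI, sum_congr rfl fun n _ => (hmul n).symm, ArithmeticFunction.sum_Ioc_mul_eq_sum_sum]
  refine sum_congr rfl fun d _ => ?_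
  rw [hcu, ← hI, harmonic_eq_sum_Icc, Rat.cast_sum]
  simp [hcv]

/-- **`∑_{e ≤ N} μ ² e / φ e = log N + O (1)`.** -/
theorem exists_sum_sqfRatio : ∃ K : ℝ, 0 ≤ K ∧ ∀ N : ℕ, 1 ≤ N →
    |(∑ e ∈ Icc 1 N, sqfRatio e / e) - Real.log N| ≤ K := by
  refine ⟨3 * ∑' d : ℕ, |localCorr d / d| * (1 + Real.log d), mul_nonneg (by norm_num)
    (tsum_nonneg fun d => mul_nonneg (abs_nonneg _) (by linarith [Real.log_natCast_nonneg d])),
    fun N hN => ?_⟩
  have hsum : Summable fun d : ℕ => localCorr d / (d : ℝ) :=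
    Summable.of_abs summable_localCorr_div
  have hsplit : ∑ d ∈ Icc 1 N, localCorr d / (d : ℝ) =
      1 - ∑' d : ℕ, localCorr (d + (N + 1)) / ((d + (N + 1) : ℕ) : ℝ) := by
    rw [← tsum_localCorr_div, ← hsum.sum_add_tsum_nat_add (N + 1), add_sub_cancel_right,
      range_eq_Ico, sum_eq_sum_Ico_succ_bot (Nat.succ_pos N)]
    rw [Nat.cast_zero, div_zero, zero_add]
    exact sum_congr (by ext; simp only [mem_Icc, mem_Ico]; omega) fun _ _ => rfl
  have hS : Summable fun d : ℕ => |localCorr d / d| * (1 + Real.log d) := summable_localCorr_log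
  have h1 : |(∑ e ∈ Icc 1 N, sqfRatio e / e) -
      Real.log N * ∑ d ∈ Icc 1 N, localCorr d / (d : ℝ)| ≤
      2 * ∑' d : ℕ, |localCorr d / d| * (1 + Real.log d) := by
    rw [sqfRatio_div_eq, mul_sum, ← sum_sub_distrib]
    refine (abs_sum_le_sum_abs _ _).trans ((sum_le_sum fun d hd => ?_).trans
      ((mul_sum _ _ _).symm.le.trans (mul_le_mul_of_nonneg_left (hS.sum_le_tsum _ fun d _ =>
        mul_nonneg (abs_nonneg _) (by linarith [Real.log_natCast_nonneg d])) two_pos.le)))
    rw [mem_Icc] at hd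
    rw [mul_comm (Real.log N), ← mul_sub, abs_mul, mul_left_comm 2 _ (1 + Real.log (d : ℝ))]
    refine mul_le_mul_of_nonneg_left ?_ (abs_nonneg _)
    obtain ⟨q, hq⟩ : ∃ q, q = N / d := ⟨_, rfl⟩
    have hq1 : 1 ≤ q := hq ▸ Nat.div_pos hd.2 hd.1
    have hup := harmonic_le_one_add_log q
    have hlow := log_add_one_le_harmonic q
    rw [← hq]
    push_cast at hlow
    have l1 : Real.log q ≤ Real.log N := Real.log_le_log (Nat.cast_pos.2 hq1)
      (Nat.cast_le.2 (hq ▸ Nat.div_le_self N d))
    have l2 : Real.log N ≤ Real.log ((q : ℝ) + 1) + Real.log d := by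
      rw [← Real.log_mul (by positivity) (Nat.cast_ne_zero.2 (by omega))]
      refine Real.log_le_log (Nat.cast_pos.2 hN) ?_
      have := Nat.lt_div_mul_add (a := N) hd.1
      rw [← hq] at this
      exact_mod_cast (show N ≤ (q + 1) * d by rw [add_mul, one_mul]; omega)
    have hld := Real.log_natCast_nonneg d
    rw [abs_le]
    constructor <;> linarith
  have hlog : 0 ≤ Real.log N := Real.log_natCast_nonneg N
  have h2 : |Real.log N * (∑ d ∈ Icc 1 N, localCorr d / (d : ℝ)) - Real.log N| ≤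
      ∑' d : ℕ, |localCorr d / d| * (1 + Real.log d) := by
    rw [hsplit, mul_sub, mul_one, sub_sub_cancel_left, abs_neg, abs_mul, abs_of_nonneg hlog,
      ← Real.norm_eq_abs]
    refine (mul_le_mul_of_nonneg_left (norm_tsum_le_tsum_norm
      ((summable_nat_add_iff (f := fun d : ℕ => |localCorr d / (d : ℝ)|) (N + 1)).2
        summable_localCorr_div)) hlog).trans ?_
    rw [← tsum_mul_left]
    refine le_trans (((summable_nat_add_iff (f := fun d : ℕ => |localCorr d / (d : ℝ)|) (N + 1)).2
      summable_localCorr_div).mul_left _ |>.tsum_le_tsum (fun d => ?_)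
        ((summable_nat_add_iff (N + 1)).2 hS)) ?_
    · rw [mul_comm, Real.norm_eq_abs]
      refine mul_le_mul_of_nonneg_left ?_ (abs_nonneg _)
      have := Real.log_le_log (Nat.cast_pos.2 hN)
        (Nat.cast_le.2 (show N ≤ d + (N + 1) by omega) : (N : ℝ) ≤ ((d + (N + 1) : ℕ) : ℝ))
      linarith
    · conv_rhs => rw [← hS.sum_add_tsum_nat_add (N + 1)]
      refine le_add_of_nonneg_left (sum_nonneg fun d _ => mul_nonneg (abs_nonneg _) ?_)
      linarith [Real.log_natCast_nonneg d]
  exact (abs_sub_le _ _ _).trans (by linarith)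

end FA.MontgomeryHooley

end
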