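import Fermat.Agent.MontgomeryHooley.Harmonic
import Fermat.Agent.MontgomeryHooley.Weights

/-!
# `∑_{n ≤ N} 1 / φ n` and `∑_{r ≤ y} (1 - r/y) ^ 2 / φ r` to second order

The first is `c log N + B + O (log N / N)`, the second `c log y + B' + log y / y + O (1 / y)`.
-/

set_option autoImplicit false

noncomputable section

namespace FA.MontgomeryHooley

open Finset Filter
open FA.PrimesMinusOne (divisorWeight titchmarshConst divisorWeight_nonneg summable_divisorWeight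
  summable_divisorWeight_log inv_totient_eq_sum one_le_titchmarshConst)
open scoped Topology

/-- `∑ n, h n / φ n` opened through `1 / φ n = ∑_{e ∣ n} w e / (n/e)`. -/
theorem sum_div_totient_eq (h : ℕ → ℝ) (N : ℕ) :
    ∑ n ∈ Icc 1 N, h n / ((n.totient : ℕ) : ℝ) =
      ∑ e ∈ Icc 1 N, divisorWeight e * ∑ j ∈ Icc 1 (N / e), h (e * j) / (j : ℝ) := by
  classical
  have h1 : ∀ n ∈ Icc 1 N, h n / ((n.totient : ℕ) : ℝ) =
      ∑ e ∈ n.divisors, divisorWeight e * (h n / ((n / e : ℕ) : ℝ)) := fun n hn => by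
    rw [div_eq_mul_inv, inv_totient_eq_sum (mem_Icc.1 hn).1, mul_sum]
    exact sum_congr rfl fun e _ => by ring
  rw [sum_congr rfl h1]
  simp only [mul_sum]
  rw [sum_sigma', sum_sigma']
  refine sum_nbij' (fun x => ⟨x.2, x.1 / x.2⟩) (fun y => ⟨y.1 * y.2, y.1⟩) ?_ ?_ ?_ ?_ ?_
  · rintro ⟨d, e⟩ hx
    simp only [mem_sigma, mem_Icc, Nat.mem_divisors] at hx ⊢
    obtain ⟨⟨h1, h2⟩, h3, -⟩ := hx
    have he : 1 ≤ e := Nat.pos_of_dvd_of_pos h3 h1
    exact ⟨⟨he, (Nat.le_of_dvd h1 h3).trans h2⟩, Nat.div_pos (Nat.le_of_dvd h1 h3) he,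
      Nat.div_le_div_right h2⟩
  · rintro ⟨e, j⟩ hx
    simp only [mem_sigma, mem_Icc, Nat.mem_divisors] at hx ⊢
    obtain ⟨⟨h1, -⟩, h3, h4⟩ := hx
    refine ⟨⟨Nat.mul_pos h1 h3, ?_⟩, dvd_mul_right e j, (Nat.mul_pos h1 h3).ne'⟩
    rw [mul_comm]
    exact (Nat.le_div_iff_mul_le h1).1 h4
  · rintro ⟨d, e⟩ hx
    simp only [mem_sigma, Nat.mem_divisors] at hx
    simp only [Nat.mul_div_cancel' hx.2.1]
  · rintro ⟨e, j⟩ hx
    simp only [mem_sigma, mem_Icc] at hx
    simp only [Nat.mul_div_cancel_left j hx.1.1]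
  · rintro ⟨d, e⟩ hx
    simp only [mem_sigma, Nat.mem_divisors] at hx
    simp only [Nat.mul_div_cancel' hx.2.1]

theorem sum_div_totient_le (N : ℕ) :
    ∑ n ∈ Icc 1 N, (n : ℝ) / ((n.totient : ℕ) : ℝ) ≤ titchmarshConst * N := by
  rw [sum_div_totient_eq (fun n : ℕ => (n : ℝ)) N, titchmarshConst]
  refine (sum_le_sum (g := fun e => divisorWeight e * (N : ℝ)) fun e he =>
    mul_le_mul_of_nonneg_left ?_ (divisorWeight_nonneg e)).trans ?_
  · rw [sum_congr rfl fun j hj => show ((e * j : ℕ) : ℝ) / (j : ℝ) = e by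
      have hj0 : (j : ℝ) ≠ 0 := Nat.cast_ne_zero.2 (by rw [mem_Icc] at hj; omega)
      push_cast
      field_simp, sum_const, Nat.card_Icc, Nat.add_sub_cancel, nsmul_eq_mul]
    exact_mod_cast Nat.div_mul_le_self N e
  · rw [← sum_mul]
    exact mul_le_mul_of_nonneg_right
      (summable_divisorWeight.sum_le_tsum _ fun e _ => divisorWeight_nonneg e) (Nat.cast_nonneg N)

/-- Partial summation for an antitone weight. -/
theorem abel_le {f g : ℕ → ℝ} {c : ℝ} (hf : ∀ n, 0 ≤ f n) (hg : ∀ n, 0 ≤ g n) {M : ℕ}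
    (hanti : ∀ n, M ≤ n → g (n + 1) ≤ g n) (hA : ∀ N, ∑ n ∈ Icc 1 N, f n ≤ c * N) {N : ℕ}
    (hMN : M ≤ N) : ∑ n ∈ Ioc M N, f n * g n ≤ c * M * g M + c * ∑ n ∈ Ioc M N, g n := by
  suffices h : ∑ n ∈ Ioc M N, f n * g n + (c * N - ∑ n ∈ Icc 1 N, f n) * g N ≤
      c * M * g M + c * ∑ n ∈ Ioc M N, g n by
    linarith [mul_nonneg (sub_nonneg.2 (hA N)) (hg N)]
  induction N, hMN using Nat.le_induction with
  | base =>
    rw [Ioc_self, sum_empty, sum_empty, sub_mul]
    linarith [mul_nonneg (sum_nonneg (s := Icc 1 M) fun n _ => hf n) (hg M)]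
  | succ N hMN ih =>
    rw [sum_Ioc_succ_top hMN, sum_Ioc_succ_top hMN, sum_Icc_succ_top (by omega)]
    push_cast
    linarith [mul_nonneg (sub_nonneg.2 (hA N)) (sub_nonneg.2 (hanti N hMN))]

theorem sum_inv_mul_sqrt_le {M N : ℕ} (hM : 1 ≤ M) (h : M ≤ N) :
    ∑ n ∈ Ioc M N, 1 / ((n : ℝ) * √(n : ℝ)) ≤ 2 / √(M : ℝ) := by
  suffices h' : ∑ n ∈ Ioc M N, 1 / ((n : ℝ) * √(n : ℝ)) ≤ 2 / √(M : ℝ) - 2 / √(N : ℝ) by
    linarith [show 0 ≤ 2 / √(N : ℝ) by positivity]
  induction N, h using Nat.le_induction with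
  | base => simp
  | succ N h ih =>
    rw [sum_Ioc_succ_top h]
    push_cast
    obtain ⟨a, ha⟩ : ∃ a, a = √(N : ℝ) := ⟨_, rfl⟩
    obtain ⟨b, hb⟩ : ∃ b, b = √((N : ℝ) + 1) := ⟨_, rfl⟩
    rw [← ha] at ih
    rw [← hb]
    have ha0 : 0 < a := ha ▸ Real.sqrt_pos.2 (Nat.cast_pos.2 (by omega))
    have hb0 : 0 < b := hb ▸ Real.sqrt_pos.2 (by positivity)
    have ha2 : a ^ 2 = N := by rw [ha, Real.sq_sqrt (Nat.cast_nonneg N)]
    have hb2 : b ^ 2 = (N : ℝ) + 1 := by rw [hb, Real.sq_sqrt (by positivity)]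
    have hab : a ≤ b := by nlinarith
    have key : 1 / (((N : ℝ) + 1) * b) ≤ 2 / a - 2 / b := by
      rw [show 2 / a - 2 / b = 2 * (b - a) / (a * b) by field_simp,
        div_le_div_iff₀ (by positivity) (by positivity)]
      have e : (b - a) * (b + a) = 1 := by linear_combination hb2 - ha2
      have h2 : b + a ≤ 2 * b := by linarith
      have h3 : 1 ≤ 2 * (b - a) * b := by nlinarith
      nlinarith [mul_le_mul_of_nonneg_left h3 (mul_nonneg hb0.le hb0.le),
        mul_le_mul hab le_rfl hb0.le hb0.le]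
    linarith

theorem divisorWeight_le_ratio (e : ℕ) :
    divisorWeight e ≤ (e : ℝ) / ((e.totient : ℕ) : ℝ) / (e : ℝ) ^ 2 := by
  rw [divisorWeight]
  split_ifs with he
  · have he0 : (e : ℝ) ≠ 0 := Nat.cast_ne_zero.2 he.ne_zero
    have hp : ((e.totient : ℕ) : ℝ) ≠ 0 := Nat.cast_ne_zero.2
      (Nat.totient_pos.2 (Nat.pos_of_ne_zero he.ne_zero)).ne'
    refine le_of_eq ?_
    field_simp
  · positivity

theorem one_add_log_le {t : ℝ} (ht : 1 ≤ t) : 1 + Real.log t ≤ 3 * √t := by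
  have h1 : 1 ≤ √t := Real.one_le_sqrt.2 ht
  have h2 := Real.log_le_sub_one_of_pos (show 0 < √t by linarith)
  rw [Real.log_sqrt (by linarith)] at h2
  linarith

/-- **The tail of the weights.** -/
theorem tail_le {y : ℝ} (hy : 1 ≤ y) {N : ℕ} (hN : ⌊y⌋₊ ≤ N) :
    ∑ e ∈ Ioc ⌊y⌋₊ N, divisorWeight e * (1 + Real.log ((e : ℝ) / y)) ≤
      18 * titchmarshConst / y := by
  obtain ⟨M, hM⟩ : ∃ M, M = ⌊y⌋₊ := ⟨_, rfl⟩
  rw [← hM] at hN ⊢
  have hy0 : 0 < y := by linarith
  have hM1 : 1 ≤ M := hM ▸ Nat.le_floor (by simpa using hy)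
  have hM1' : (1 : ℝ) ≤ M := by exact_mod_cast hM1
  have hMy : y ≤ 2 * M := by
    have := Nat.lt_floor_add_one y
    rw [← hM] at this
    linarith
  have hc := one_le_titchmarshConst
  obtain ⟨g, hg⟩ : ∃ g : ℕ → ℝ, g = fun n : ℕ => 1 / ((n : ℝ) * √(n : ℝ)) := ⟨_, rfl⟩
  have hterm : ∀ e ∈ Ioc M N, divisorWeight e * (1 + Real.log ((e : ℝ) / y)) ≤
      3 / √y * ((e : ℝ) / ((e.totient : ℕ) : ℝ) * g e) := fun e he => by
    rw [mem_Ioc] at he
    have hey : y ≤ e := by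
      have := Nat.lt_floor_add_one y
      rw [← hM] at this
      exact this.le.trans (by exact_mod_cast he.1)
    have he0 : (0 : ℝ) < e := by linarith
    refine (mul_le_mul (divisorWeight_le_ratio e) (one_add_log_le ((one_le_div hy0).2 hey))
      (by linarith [Real.log_nonneg ((one_le_div hy0).2 hey)]) (by positivity)).trans (le_of_eq ?_)
    have h12 : √(e : ℝ) / (e : ℝ) ^ 2 = 1 / ((e : ℝ) * √(e : ℝ)) := by
      rw [div_eq_div_iff (by positivity) (by positivity)]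
      linear_combination (e : ℝ) * Real.mul_self_sqrt he0.le
    rw [Real.sqrt_div he0.le, hg]
    linear_combination (3 / √y * ((e : ℝ) / ((e.totient : ℕ) : ℝ))) * h12
  refine (sum_le_sum hterm).trans ?_
  rw [← mul_sum]
  have hga : ∀ n, M ≤ n → g (n + 1) ≤ g n := fun n hn => by
    have hn0 : (0 : ℝ) < n := Nat.cast_pos.2 (by omega)
    rw [hg]
    push_cast
    exact one_div_le_one_div_of_le (by positivity)
      (mul_le_mul (by linarith) (Real.sqrt_le_sqrt (by linarith)) (Real.sqrt_nonneg _)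
        (by linarith))
  have hgM : (M : ℝ) * g M = 1 / √(M : ℝ) := by
    rw [hg]
    field_simp
  have hgs : ∑ n ∈ Ioc M N, g n ≤ 2 / √(M : ℝ) := by
    rw [hg]
    exact sum_inv_mul_sqrt_le hM1 hN
  refine (mul_le_mul_of_nonneg_left ((abel_le (c := titchmarshConst) (fun n => by positivity)
    (fun n => by rw [hg]; positivity) hga sum_div_totient_le hN).trans (add_le_add
      (le_of_eq (by rw [mul_assoc, hgM])) (mul_le_mul_of_nonneg_left hgs (by linarith))))
        (by positivity)).trans ?_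
  rw [show 3 / √y * (titchmarshConst * (1 / √(M : ℝ)) + titchmarshConst * (2 / √(M : ℝ))) =
    9 * titchmarshConst / (√y * √(M : ℝ)) by field_simp; ring,
    div_le_div_iff₀ (by positivity) hy0]
  have h2 : y ≤ 2 * (√y * √(M : ℝ)) := by
    rw [← Real.sqrt_mul hy0.le, ← div_le_iff₀' two_pos]
    exact Real.le_sqrt_of_sq_le (by nlinarith)
  nlinarith [mul_le_mul_of_nonneg_left h2 (show 0 ≤ 9 * titchmarshConst by linarith)]

/-- `∑ w e log e`. -/
def weightLog : ℝ := ∑' e : ℕ, divisorWeight e * Real.log e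

theorem summable_weightLog : Summable fun e : ℕ => divisorWeight e * Real.log e :=
  (summable_divisorWeight_log.sub summable_divisorWeight).congr fun e => by ring

/-- **The completed sum.** -/
theorem abs_weight_log_sub_le {y k : ℝ} (hy : 1 ≤ y) (hk : |k| ≤ 3 / 2) :
    |(∑ e ∈ Icc 1 ⌊y⌋₊, divisorWeight e * (Real.log y + k - Real.log e)) -
      (titchmarshConst * (Real.log y + k) - weightLog)| ≤ 27 * titchmarshConst / y := by
  obtain ⟨F, hF⟩ : ∃ F : ℕ → ℝ, F = fun e : ℕ =>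
      divisorWeight e * (Real.log y + k - Real.log e) := ⟨_, rfl⟩
  have hS : Summable F := by
    rw [hF]
    exact ((summable_divisorWeight.mul_right (Real.log y + k)).sub summable_weightLog).congr
      fun e => by ring
  have htot : ∑' e, F e = titchmarshConst * (Real.log y + k) - weightLog := by
    rw [hF, titchmarshConst, weightLog, ← tsum_mul_right,
      ← (summable_divisorWeight.mul_right (Real.log y + k)).tsum_sub summable_weightLog]
    exact tsum_congr fun e => by ring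
  have h0 : F 0 = 0 := by simp [hF, divisorWeight]
  have hfin : ∑ e ∈ range (⌊y⌋₊ + 1), F e = ∑ e ∈ Icc 1 ⌊y⌋₊, F e := by
    rw [range_eq_Ico, sum_eq_sum_Ico_succ_bot (Nat.succ_pos _), h0, zero_add]
    exact sum_congr (by ext; simp only [mem_Icc, mem_Ico]; omega) fun _ _ => rfl
  rw [← htot, ← hS.sum_add_tsum_nat_add (⌊y⌋₊ + 1), hfin,
    show ∑ e ∈ Icc 1 ⌊y⌋₊, divisorWeight e * (Real.log y + k - Real.log e) =
      ∑ e ∈ Icc 1 ⌊y⌋₊, F e by rw [hF], sub_add_cancel_left, abs_neg, ← Real.norm_eq_abs]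
  have hSn : Summable fun i => ‖F (i + (⌊y⌋₊ + 1))‖ :=
    ((summable_nat_add_iff (⌊y⌋₊ + 1)).2 hS).norm
  refine (norm_tsum_le_tsum_norm hSn).trans
    (Real.tsum_le_of_sum_range_le (fun _ => norm_nonneg _) fun n => ?_)
  have hreidx : ∑ i ∈ range n, ‖F (i + (⌊y⌋₊ + 1))‖ = ∑ e ∈ Ioc ⌊y⌋₊ (⌊y⌋₊ + n), ‖F e‖ := by
    rw [show Ioc ⌊y⌋₊ (⌊y⌋₊ + n) = Ico (⌊y⌋₊ + 1) (⌊y⌋₊ + 1 + n) by
      ext; simp only [mem_Ioc, mem_Ico]; omega, sum_Ico_eq_sum_range, Nat.add_sub_cancel_left]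
    exact sum_congr rfl fun i _ => by rw [add_comm i]
  rw [hreidx]
  refine (sum_le_sum fun e he => ?_).trans ((mul_sum _ _ (3 / 2 : ℝ)).symm.le.trans
    ((mul_le_mul_of_nonneg_left (tail_le hy (Nat.le_add_right _ n)) (by norm_num)).trans
      (le_of_eq (by ring))))
  rw [mem_Ioc] at he
  have hey : y ≤ e := (Nat.lt_floor_add_one y).le.trans (by exact_mod_cast he.1)
  have hl : 0 ≤ Real.log ((e : ℝ) / y) := Real.log_nonneg ((one_le_div (by linarith)).2 hey)
  rw [hF, Real.norm_eq_abs, abs_mul, abs_of_nonneg (divisorWeight_nonneg e),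
    mul_left_comm (3 / 2 : ℝ)]
  refine mul_le_mul_of_nonneg_left ?_ (divisorWeight_nonneg e)
  rw [Real.log_div (by linarith) (by linarith)] at hl ⊢
  rw [abs_le] at hk ⊢
  constructor <;> linarith

theorem sum_weight_mul_self (N : ℕ) : ∑ e ∈ Icc 1 N, divisorWeight e * e =
    ∑ e ∈ Icc 1 N, sqfRatio e / e :=
  sum_congr rfl fun e he => by
    have he0 : (e : ℝ) ≠ 0 := Nat.cast_ne_zero.2 (by rw [mem_Icc] at he; omega)
    rw [sqfRatio_apply]
    field_simp

/-- **`∑_{n ≤ N} 1 / φ n = c log N + B + O (log N / N)`.** -/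
theorem exists_sum_inv_totient : ∃ B K : ℝ, 0 ≤ K ∧ ∀ N : ℕ, 1 ≤ N →
    |(∑ n ∈ Icc 1 N, ((n.totient : ℕ) : ℝ)⁻¹) - (titchmarshConst * Real.log N + B)| ≤
      K * (1 + Real.log N) / N := by
  obtain ⟨K1, hK1, hF⟩ := exists_sum_sqfRatio
  have hc := one_le_titchmarshConst
  refine ⟨titchmarshConst * Real.eulerMascheroniConstant - weightLog,
    5 + 5 * K1 + 27 * titchmarshConst, by linarith, fun N hN => ?_⟩
  have hN0 : (0 : ℝ) < N := Nat.cast_pos.2 hN
  have hlog : 0 ≤ Real.log N := Real.log_natCast_nonneg N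
  have hg := Real.one_half_lt_eulerMascheroniConstant
  have hg' := Real.eulerMascheroniConstant_lt_two_thirds
  have e0 : ∑ n ∈ Icc 1 N, ((n.totient : ℕ) : ℝ)⁻¹ =
      ∑ e ∈ Icc 1 N, divisorWeight e * (harmonic (N / e) : ℝ) :=
    PrimesMinusOne.sum_inv_totient_eq N
  have h1 : |(∑ n ∈ Icc 1 N, ((n.totient : ℕ) : ℝ)⁻¹) - ∑ e ∈ Icc 1 N,
      divisorWeight e * (Real.log N + Real.eulerMascheroniConstant - Real.log e)| ≤
      5 / (N : ℝ) * ∑ e ∈ Icc 1 N, divisorWeight e * e := by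
    rw [e0, ← sum_sub_distrib, mul_sum]
    refine (abs_sum_le_sum_abs _ _).trans (sum_le_sum fun e he => ?_)
    rw [mem_Icc] at he
    have he0 : (0 : ℝ) < e := Nat.cast_pos.2 he.1
    have hz : 1 ≤ (N : ℝ) / e := (one_le_div he0).2 (Nat.cast_le.2 he.2)
    have h := abs_harmonic_floor_sub_le hz
    rw [Nat.floor_div_eq_div, Real.log_div hN0.ne' he0.ne', div_div_eq_mul_div] at h
    rw [← mul_sub, abs_mul, abs_of_nonneg (divisorWeight_nonneg e),
      mul_left_comm (5 / (N : ℝ))]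
    refine mul_le_mul_of_nonneg_left ?_ (divisorWeight_nonneg e)
    rw [show Real.log N + Real.eulerMascheroniConstant - Real.log e =
      Real.log N - Real.log e + Real.eulerMascheroniConstant by ring, div_mul_eq_mul_div]
    exact h
  have h2 := abs_weight_log_sub_le (y := (N : ℝ)) (k := Real.eulerMascheroniConstant)
    (Nat.one_le_cast.2 hN) (abs_le.2 ⟨by linarith, by linarith⟩)
  rw [Nat.floor_natCast] at h2
  have h3 : 5 / (N : ℝ) * ∑ e ∈ Icc 1 N, divisorWeight e * e ≤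
      5 / (N : ℝ) * (Real.log N + K1) := by
    refine mul_le_mul_of_nonneg_left ?_ (by positivity)
    rw [sum_weight_mul_self]
    linarith [(abs_le.1 (hF N hN)).2]
  have h4 : 5 / (N : ℝ) * (Real.log N + K1) + 27 * titchmarshConst / N ≤
      (5 + 5 * K1 + 27 * titchmarshConst) * (1 + Real.log N) / N := by
    rw [div_mul_eq_mul_div, ← add_div]
    refine div_le_div_of_nonneg_right ?_ hN0.le
    nlinarith [mul_nonneg hlog (show 0 ≤ 5 * K1 + 27 * titchmarshConst by linarith)]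
  rw [abs_le] at h1 h2 ⊢
  constructor <;> linarith

/-- `∑_{r ≤ y} (1 - r/y) ^ 2 / φ r`. -/
def quadTot (y : ℝ) : ℝ := ∑ r ∈ Icc 1 ⌊y⌋₊, (1 - (r : ℝ) / y) ^ 2 / ((r.totient : ℕ) : ℝ)

theorem quadTot_eq (y : ℝ) :
    quadTot y = ∑ e ∈ Icc 1 ⌊y⌋₊, divisorWeight e * quadHarm (y / e) := by
  rw [quadTot, sum_div_totient_eq (fun r : ℕ => (1 - (r : ℝ) / y) ^ 2) ⌊y⌋₊]
  refine sum_congr rfl fun e he => ?_
  rw [quadHarm, Nat.floor_div_natCast]
  congr 1
  refine sum_congr rfl fun j _ => ?_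
  push_cast
  rw [div_div_eq_mul_div, mul_comm (e : ℝ)]

/-- **`∑_{r ≤ y} (1 - r/y) ^ 2 / φ r = c log y + B + log y / y + O (1 / y)`.** -/
theorem exists_quadTot : ∃ B K : ℝ, 0 ≤ K ∧ ∀ y : ℝ, 1 ≤ y →
    |quadTot y - (titchmarshConst * Real.log y + B + Real.log y / y)| ≤ K / y := by
  obtain ⟨K1, hK1, hF⟩ := exists_sum_sqfRatio
  have hc := one_le_titchmarshConst
  refine ⟨titchmarshConst * (Real.eulerMascheroniConstant - 3 / 2) - weightLog,
    37 * titchmarshConst + K1 + 1, by linarith, fun y hy => ?_⟩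
  have hy0 : 0 < y := by linarith
  have hg := Real.one_half_lt_eulerMascheroniConstant
  have hg' := Real.eulerMascheroniConstant_lt_two_thirds
  obtain ⟨M, hM⟩ : ∃ M, M = ⌊y⌋₊ := ⟨_, rfl⟩
  have hMle : (M : ℝ) ≤ y := hM ▸ Nat.floor_le hy0.le
  have hM1 : 1 ≤ M := hM ▸ Nat.le_floor (by simpa using hy)
  have hM1' : (1 : ℝ) ≤ M := by exact_mod_cast hM1
  have h1 : |quadTot y - ∑ e ∈ Icc 1 M, (divisorWeight e * (Real.log y +
      (Real.eulerMascheroniConstant - 3 / 2) - Real.log e) + divisorWeight e * e / y)| ≤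
      10 / y ^ 2 * ∑ e ∈ Icc 1 M, divisorWeight e * (e : ℝ) ^ 2 := by
    rw [quadTot_eq, ← hM, ← sum_sub_distrib, mul_sum]
    refine (abs_sum_le_sum_abs _ _).trans (sum_le_sum fun e he => ?_)
    rw [mem_Icc] at he
    have he0 : (0 : ℝ) < e := Nat.cast_pos.2 he.1
    have hz : 1 ≤ y / e := (one_le_div he0).2 ((Nat.cast_le.2 he.2).trans hMle)
    have h := abs_quadHarm_sub_le hz
    rw [Real.log_div hy0.ne' he0.ne', div_pow, div_div_eq_mul_div, div_div_eq_mul_div,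
      one_mul] at h
    rw [mul_div_assoc, ← mul_add, ← mul_sub, abs_mul, abs_of_nonneg (divisorWeight_nonneg e),
      mul_left_comm (10 / y ^ 2)]
    refine mul_le_mul_of_nonneg_left ?_ (divisorWeight_nonneg e)
    rw [show Real.log y + (Real.eulerMascheroniConstant - 3 / 2) - Real.log e + (e : ℝ) / y =
      Real.log y - Real.log e + Real.eulerMascheroniConstant - 3 / 2 + (e : ℝ) / y by ring,
      div_mul_eq_mul_div]
    exact h
  have h2 : 10 / y ^ 2 * ∑ e ∈ Icc 1 M, divisorWeight e * (e : ℝ) ^ 2 ≤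
      10 * titchmarshConst / y := by
    have hH : ∑ e ∈ Icc 1 M, divisorWeight e * (e : ℝ) ^ 2 ≤ titchmarshConst * y := by
      refine (sum_le_sum fun e he => ?_).trans
        ((sum_div_totient_le M).trans (mul_le_mul_of_nonneg_left hMle (by linarith)))
      have he0 : (0 : ℝ) < e := Nat.cast_pos.2 (by rw [mem_Icc] at he; omega)
      exact (le_div_iff₀ (by positivity)).1 (divisorWeight_le_ratio e)
    refine (mul_le_mul_of_nonneg_left hH (by positivity)).trans (le_of_eq ?_)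
    field_simp
  have h3 : |(∑ e ∈ Icc 1 M, divisorWeight e * e / y) - Real.log y / y| ≤ (K1 + 1) / y := by
    rw [← sum_div, ← sub_div, abs_div, abs_of_pos hy0, sum_weight_mul_self]
    refine div_le_div_of_nonneg_right ?_ hy0.le
    obtain ⟨-, -, -, h4, h5, h6⟩ := floor_facts hy
    rw [← hM] at h4 h5 h6
    have hd : (y - (M : ℝ)) / (M : ℝ) ≤ 1 := by
      rw [div_le_one (by linarith)]
      linarith
    have hd0 : 0 ≤ (y - (M : ℝ)) / y := div_nonneg (by linarith) hy0.le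
    have h7 := abs_le.1 (hF M hM1)
    rw [abs_le]
    constructor <;> linarith
  have h4 := abs_weight_log_sub_le hy (k := Real.eulerMascheroniConstant - 3 / 2)
    (abs_le.2 ⟨by linarith, by linarith⟩)
  rw [← hM] at h4
  rw [sum_add_distrib] at h1
  have h5 : 10 * titchmarshConst / y + (K1 + 1) / y + 27 * titchmarshConst / y =
      (37 * titchmarshConst + K1 + 1) / y := by ring
  rw [abs_le] at h1 h3 h4 ⊢
  constructor <;> linarith

end FA.MontgomeryHooley

end
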