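import Mathlib.NumberTheory.Harmonic.Bounds
import Mathlib.NumberTheory.Harmonic.EulerMascheroni
import Mathlib.Analysis.SpecialFunctions.Trigonometric.DerivHyp
import Mathlib.Tactic

/-!
# `∑_{j ≤ z} (1 - j/z) ^ 2 / j` to second order

It is `log z + γ - 3/2 + 1/z + O (1/z ^ 2)`, from `H n = log n + γ + 1/(2 n) + O (1/n ^ 2)`.
-/

set_option autoImplicit false

noncomputable section

namespace FA.MontgomeryHooley

open Finset Filter
open scoped Topology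

/-- `H n - log n - 1/(2 n)`. -/
def harmDefect (n : ℕ) : ℝ := (harmonic n : ℝ) - Real.log n - 1 / (2 * n)

theorem harmDefect_step {n : ℕ} (hn : 1 ≤ n) :
    0 ≤ harmDefect (n + 1) - harmDefect n ∧
      harmDefect (n + 1) - harmDefect n ≤ 1 / (2 * (n : ℝ) ^ 2) - 1 / (2 * ((n : ℝ) + 1) ^ 2) := by
  have hn0 : (1 : ℝ) ≤ n := Nat.one_le_cast.2 hn
  have ht : (0 : ℝ) ≤ 1 / n := by positivity
  have hs : (1 : ℝ) + 1 / n = ((n : ℝ) + 1) / n := by field_simp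
  obtain ⟨l, hl⟩ : ∃ l, l = Real.log (((n : ℝ) + 1) / n) := ⟨_, rfl⟩
  have e : harmDefect (n + 1) - harmDefect n =
      (1 / (n : ℝ) + 1 / ((n : ℝ) + 1)) / 2 - l := by
    rw [hl, harmDefect, harmDefect, harmonic_succ, Real.log_div (by positivity) (by positivity)]
    push_cast
    simp only [one_div, mul_inv]
    ring
  have hup : l ≤ (1 / (n : ℝ) + 1 / ((n : ℝ) + 1)) / 2 := by
    have h := Real.self_le_sinh_iff.2 (show 0 ≤ l from hl ▸ hs ▸ Real.log_nonneg (by linarith))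
    rw [hl, Real.sinh_log (by positivity), ← hl] at h
    refine h.trans (le_of_eq ?_)
    field_simp
    ring
  have hlow : 2 / (2 * (n : ℝ) + 1) ≤ l := by
    have h := Real.le_log_one_add_of_nonneg ht
    rw [hs, ← hl] at h
    refine le_trans (le_of_eq ?_) h
    field_simp
    ring
  refine ⟨by linarith, ?_⟩
  rw [e]
  have h2 : (1 / (n : ℝ) + 1 / ((n : ℝ) + 1)) / 2 - 2 / (2 * (n : ℝ) + 1) =
      1 / (2 * (n : ℝ) * (n + 1) * (2 * n + 1)) := by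
    field_simp
    ring
  have h3 : 1 / (2 * (n : ℝ) * (n + 1) * (2 * n + 1)) ≤
      1 / (2 * (n : ℝ) ^ 2) - 1 / (2 * ((n : ℝ) + 1) ^ 2) := by
    rw [show 1 / (2 * (n : ℝ) ^ 2) - 1 / (2 * ((n : ℝ) + 1) ^ 2) =
      (2 * (n : ℝ) + 1) / (2 * (n : ℝ) ^ 2 * ((n : ℝ) + 1) ^ 2) by field_simp; ring,
      div_le_div_iff₀ (by positivity) (by positivity)]
    nlinarith [pow_pos (show (0 : ℝ) < n by linarith) 2, pow_pos (show (0 : ℝ) < n by linarith) 3,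
      pow_pos (show (0 : ℝ) < n by linarith) 4]
  linarith

theorem tendsto_harmDefect :
    Tendsto harmDefect atTop (𝓝 Real.eulerMascheroniConstant) := by
  have h : Tendsto (fun n : ℕ => 1 / (2 * (n : ℝ))) atTop (𝓝 0) :=
    (tendsto_natCast_atTop_atTop.const_mul_atTop (two_pos : (0 : ℝ) < 2)).const_div_atTop 1
  have h' := Real.tendsto_harmonic_sub_log.sub h
  rw [sub_zero] at h'
  exact h'

/-- **`H n = log n + γ + 1/(2 n) + O (1/n ^ 2)`.** -/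
theorem harmDefect_bounds {n : ℕ} (hn : 1 ≤ n) :
    harmDefect n ≤ Real.eulerMascheroniConstant ∧
      Real.eulerMascheroniConstant ≤ harmDefect n + 1 / (2 * (n : ℝ) ^ 2) := by
  have key : ∀ m, n ≤ m → harmDefect n ≤ harmDefect m ∧
      harmDefect m + 1 / (2 * (m : ℝ) ^ 2) ≤ harmDefect n + 1 / (2 * (n : ℝ) ^ 2) := fun m hm => by
    induction m, hm using Nat.le_induction with
    | base => exact ⟨le_rfl, le_rfl⟩
    | succ m hm ih =>
      obtain ⟨h1, h2⟩ := harmDefect_step (hn.trans hm)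
      push_cast
      constructor <;> linarith [ih.1, ih.2]
  constructor
  · exact ge_of_tendsto tendsto_harmDefect ((eventually_ge_atTop n).mono fun m hm => (key m hm).1)
  · exact le_of_tendsto tendsto_harmDefect ((eventually_ge_atTop n).mono fun m hm => by
      linarith [(key m hm).2, show (0 : ℝ) ≤ 1 / (2 * (m : ℝ) ^ 2) by positivity])

/-- `∑_{j ≤ z} (1 - j/z) ^ 2 / j`. -/
def quadHarm (z : ℝ) : ℝ := ∑ j ∈ Icc 1 ⌊z⌋₊, (1 - (j : ℝ) / z) ^ 2 / j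

theorem quadHarm_eq {z : ℝ} (hz : 1 ≤ z) :
    quadHarm z = (harmonic ⌊z⌋₊ : ℝ) - 2 * (⌊z⌋₊ : ℝ) / z +
      (⌊z⌋₊ : ℝ) * ((⌊z⌋₊ : ℝ) + 1) / (2 * z ^ 2) := by
  rw [quadHarm]
  generalize ⌊z⌋₊ = n
  induction n with
  | zero => simp
  | succ n ih =>
    rw [sum_Icc_succ_top (by omega), ih, harmonic_succ]
    have hz0 : z ≠ 0 := by linarith
    push_cast
    field_simp
    ring

/-- The floor, its logarithm and its reciprocal. -/
theorem floor_facts {z : ℝ} (hz : 1 ≤ z) :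
    1 ≤ (⌊z⌋₊ : ℝ) ∧ (⌊z⌋₊ : ℝ) ≤ z ∧ z ≤ (⌊z⌋₊ : ℝ) + 1 ∧ z ≤ 2 * (⌊z⌋₊ : ℝ) ∧
      (z - (⌊z⌋₊ : ℝ)) / z ≤ Real.log z - Real.log (⌊z⌋₊ : ℝ) ∧
      Real.log z - Real.log (⌊z⌋₊ : ℝ) ≤ (z - (⌊z⌋₊ : ℝ)) / (⌊z⌋₊ : ℝ) := by
  have hn : (1 : ℝ) ≤ (⌊z⌋₊ : ℝ) := Nat.one_le_cast.2 (Nat.le_floor (by simpa using hz))
  have hnz : (⌊z⌋₊ : ℝ) ≤ z := Nat.floor_le (by linarith)
  have hlt := (Nat.lt_floor_add_one z).le
  have hz0 : 0 < z := by linarith
  have hn0 : (0 : ℝ) < (⌊z⌋₊ : ℝ) := by linarith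
  refine ⟨hn, hnz, hlt, by linarith, ?_, ?_⟩
  · have h := Real.log_le_sub_one_of_pos (div_pos hn0 hz0)
    rw [Real.log_div hn0.ne' hz0.ne'] at h
    rw [sub_div, div_self hz0.ne']
    linarith
  · have h := Real.log_le_sub_one_of_pos (div_pos hz0 hn0)
    rw [Real.log_div hz0.ne' hn0.ne'] at h
    rw [sub_div, div_self hn0.ne']
    linarith

/-- **The second order.** -/
theorem abs_quadHarm_sub_le {z : ℝ} (hz : 1 ≤ z) :
    |quadHarm z - (Real.log z + Real.eulerMascheroniConstant - 3 / 2 + 1 / z)| ≤ 10 / z ^ 2 := by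
  obtain ⟨h1, h2, h3, h4, h5, h6⟩ := floor_facts hz
  have hb := harmDefect_bounds (Nat.le_floor (by simpa using hz) : 1 ≤ ⌊z⌋₊)
  rw [harmDefect] at hb
  rw [quadHarm_eq hz]
  obtain ⟨n, hn⟩ : ∃ n : ℝ, n = (⌊z⌋₊ : ℝ) := ⟨_, rfl⟩
  rw [← hn] at h1 h2 h3 h4 h5 h6 hb ⊢
  obtain ⟨H, hH⟩ : ∃ H : ℝ, H = (harmonic ⌊z⌋₊ : ℝ) := ⟨_, rfl⟩
  rw [← hH] at hb ⊢
  have hz0 : 0 < z := by linarith
  have hn0 : 0 < n := by linarith
  have hz2 : 0 < z ^ 2 := by positivity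
  obtain ⟨f, hf⟩ : ∃ f, f = z - n := ⟨_, rfl⟩
  have hf0 : 0 ≤ f := by linarith
  have hf1 : f ≤ 1 := by linarith
  rw [← hf] at h5 h6
  have e : H - 2 * n / z + n * (n + 1) / (2 * z ^ 2) -
      (Real.log z + Real.eulerMascheroniConstant - 3 / 2 + 1 / z) =
      (H - Real.log n - 1 / (2 * n) - Real.eulerMascheroniConstant) +
        (f / z - (Real.log z - Real.log n)) + (1 / (2 * n) - 1 / (2 * z)) +
        (f ^ 2 - f) / (2 * z ^ 2) := by
    rw [show f = z - n from hf]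
    field_simp
    ring
  have a1 : f / n - f / z ≤ 2 / z ^ 2 := by
    rw [show f / n - f / z = f * f / (n * z) by rw [hf]; field_simp,
      div_le_div_iff₀ (by positivity) hz2]
    nlinarith [mul_le_mul hf1 hf1 hf0 zero_le_one, mul_nonneg hf0 hf0]
  have a2 : 1 / (2 * n) - 1 / (2 * z) ≤ 1 / z ^ 2 := by
    rw [show 1 / (2 * n) - 1 / (2 * z) = f / (2 * n * z) by rw [hf]; field_simp,
      div_le_div_iff₀ (by positivity) hz2]
    nlinarith
  have a2' : 0 ≤ 1 / (2 * n) - 1 / (2 * z) := by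
    rw [show 1 / (2 * n) - 1 / (2 * z) = f / (2 * n * z) by rw [hf]; field_simp]
    positivity
  have a3 : 1 / (2 * n ^ 2) ≤ 2 / z ^ 2 := by
    rw [div_le_div_iff₀ (by positivity) hz2]
    nlinarith
  have a4 : |(f ^ 2 - f) / (2 * z ^ 2)| ≤ 1 / z ^ 2 := by
    rw [abs_div, abs_of_pos (show 0 < 2 * z ^ 2 by positivity),
      div_le_div_iff₀ (by positivity) hz2]
    have : |f ^ 2 - f| ≤ 1 := by rw [abs_le]; constructor <;> nlinarith
    nlinarith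
  have hpos : (0 : ℝ) ≤ 1 / z ^ 2 := by positivity
  rw [e, abs_le]
  rw [abs_le] at a4
  rw [show (10 : ℝ) / z ^ 2 = 10 * (1 / z ^ 2) by ring]
  rw [show (2 : ℝ) / z ^ 2 = 2 * (1 / z ^ 2) by ring] at a1 a3
  constructor <;> linarith [hb.1, hb.2, a4.1, a4.2]

/-- **The first order.** -/
theorem abs_harmonic_floor_sub_le {z : ℝ} (hz : 1 ≤ z) :
    |(harmonic ⌊z⌋₊ : ℝ) - (Real.log z + Real.eulerMascheroniConstant)| ≤ 5 / z := by
  obtain ⟨h1, h2, h3, h4, h5, h6⟩ := floor_facts hz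
  have hb := harmDefect_bounds (Nat.le_floor (by simpa using hz) : 1 ≤ ⌊z⌋₊)
  rw [harmDefect] at hb
  obtain ⟨n, hn⟩ : ∃ n : ℝ, n = (⌊z⌋₊ : ℝ) := ⟨_, rfl⟩
  rw [← hn] at h1 h2 h3 h4 h5 h6 hb
  have hz0 : 0 < z := by linarith
  have a1 : (z - n) / n ≤ 2 / z := by
    rw [div_le_div_iff₀ (by linarith) hz0]
    nlinarith
  have a0 : 0 ≤ (z - n) / z := div_nonneg (by linarith) hz0.le
  have a2 : 1 / (2 * n) ≤ 1 / z := one_div_le_one_div_of_le hz0 (by linarith)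
  have a2' : 0 ≤ 1 / (2 * n) := by positivity
  have a3 : 1 / (2 * n ^ 2) ≤ 1 / z := one_div_le_one_div_of_le hz0 (by nlinarith)
  rw [show (5 : ℝ) / z = 5 * (1 / z) by ring, abs_le]
  rw [show (2 : ℝ) / z = 2 * (1 / z) by ring] at a1
  have : 0 ≤ 1 / z := by positivity
  constructor <;> linarith [hb.1, hb.2]

end FA.MontgomeryHooley

end
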