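import Fermat.Agent.MontgomeryHooley.Switch
import Fermat.Agent.BarbanDavenportHalberstam.Main
import Fermat.Agent.Root.SummarySiegelWalfisz

/-!
# The theorem of Montgomery and Hooley

`∑_{q ≤ Q} ∑_{(a, q) = 1} (ψ (x; q, a) - x / φ q) ^ 2 = Q x log Q + O (Q x)` for
`x / (log x) ^ A ≤ Q ≤ x`.
-/

set_option autoImplicit false

noncomputable section

namespace FA.MontgomeryHooley

open Finset Filter ArithmeticFunction
open FA.ThreePrimes (logOne unitResidues one_le_logOne)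
open FA.BombieriVinogradov (psiAP psiAP_nonneg)
open FA.PrimesMinusOne (titchmarshConst)
open scoped Topology

/-- `∑_{q ≤ Q} ∑_{(a, q) = 1} (ψ (x; q, a) - x / φ q) ^ 2`. -/
def meanSquare (x Q : ℕ) : ℝ :=
  ∑ q ∈ Icc 1 Q, ∑ a ∈ unitResidues q, (psiAP x q a - x / q.totient) ^ 2

theorem meanSquare_nonneg (x Q : ℕ) : 0 ≤ meanSquare x Q :=
  sum_nonneg fun _ _ => sum_nonneg fun _ _ => sq_nonneg _

/-- The `x` that are large for the exponent `A`. -/
def IsLargeFor (A x : ℕ) : Prop :=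
  3 ≤ x ∧ (2 : ℝ) ^ (A + 2) ≤ Real.log x ∧ Real.log x ^ (2 * (2 * A + 6)) ≤ x

theorem eventually_isLargeFor (A : ℕ) : ∀ᶠ x : ℕ in atTop, IsLargeFor A x := by
  have h1 : ∀ᶠ x : ℕ in atTop, (2 : ℝ) ^ (A + 2) ≤ Real.log x :=
    (Real.tendsto_log_atTop.comp tendsto_natCast_atTop_atTop).eventually_ge_atTop _
  have h2 := tendsto_natCast_atTop_atTop.eventually
    ((Real.isLittleO_pow_log_id_atTop (n := 2 * (2 * A + 6))).bound one_pos)
  filter_upwards [eventually_ge_atTop 3, h1, h2] with x hx h1 h2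
  refine ⟨hx, h1, (le_abs_self _).trans ?_⟩
  simpa [Real.norm_eq_abs] using h2

theorem IsLargeFor.four_le {A x : ℕ} (h : IsLargeFor A x) : 4 ≤ Real.log x :=
  le_trans (by
    rw [show (4 : ℝ) = 2 ^ 2 by norm_num]
    exact pow_le_pow_right₀ one_le_two (by omega)) h.2.1

theorem IsLargeFor.pow_le_sqrt {A x : ℕ} (h : IsLargeFor A x) :
    Real.log x ^ (2 * A + 6) ≤ √(x : ℝ) :=
  Real.le_sqrt_of_sq_le (by rw [← pow_mul, mul_comm (2 * A + 6) 2]; exact h.2.2)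

theorem psiAP_le_psiNat (y r a : ℕ) : psiAP y r a ≤ psiNat y :=
  sum_le_sum_of_subset_of_nonneg (filter_subset _ _) fun _ _ _ => vonMangoldt_nonneg

/-- **Siegel-Walfisz, up to `x`.** -/
theorem exists_small_modulus_error (A : ℕ) : ∃ C : ℝ, 0 < C ∧ ∀ x : ℕ, IsLargeFor A x →
    ∀ r : ℕ, 1 ≤ r → (r : ℝ) ≤ Real.log x ^ (A + 1) → ∀ a : ℕ, a.Coprime r → ∀ y ≤ x,
      |psiAP y r a - y / r.totient| ≤ C * x / Real.log x ^ (2 * A + 6) := by
  obtain ⟨C, hC, hsw⟩ := SiegelWalfisz.Summary.siegel_walfisz_log ((A + 2 : ℕ) : ℝ)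
    ((2 * A + 6 : ℕ) : ℝ) (by positivity) (by positivity)
  refine ⟨C * 2 ^ (2 * A + 6) + 7, by positivity, fun x hx r hr hrl a ha y hy => ?_⟩
  have : NeZero r := ⟨by omega⟩
  obtain ⟨l, hl⟩ : ∃ l, l = Real.log x := ⟨_, rfl⟩
  have h4 := hx.four_le
  have hsq := hx.pow_le_sqrt
  have h2A := hx.2.1
  rw [← hl] at hrl h4 hsq h2A ⊢
  have hl0 : 0 < l := by linarith
  have hlK : 0 < l ^ (2 * A + 6) := by positivity
  have hx0 : (0 : ℝ) < x := Nat.cast_pos.2 (by have := hx.1; omega)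
  have hφ : (1 : ℝ) ≤ r.totient := Nat.one_le_cast.2 (Nat.totient_pos.2 hr)
  rw [add_mul, add_div]
  rcases lt_or_ge (y : ℝ) √(x : ℝ) with hlt | hge
  · refine le_trans ?_ (le_add_of_nonneg_left (by positivity))
    have h1 := (psiAP_le_psiNat y r a).trans (psiNat_le y)
    have h2 := psiAP_nonneg y r a
    have h3 : (y : ℝ) / r.totient ≤ y := div_le_self (Nat.cast_nonneg y) hφ
    have h5 : (0 : ℝ) ≤ (y : ℝ) / r.totient := by positivity
    have h6 : 7 * (y : ℝ) ≤ 7 * x / l ^ (2 * A + 6) := by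
      rw [le_div_iff₀ hlK]
      calc 7 * (y : ℝ) * l ^ (2 * A + 6) ≤ 7 * √(x : ℝ) * √(x : ℝ) :=
            mul_le_mul (by linarith) hsq hlK.le (by positivity)
        _ = 7 * x := by rw [mul_assoc, Real.mul_self_sqrt hx0.le]
    rw [abs_le]
    constructor <;> linarith
  · refine le_trans ?_ (le_add_of_nonneg_right (by positivity))
    have hsx : 0 < √(x : ℝ) := Real.sqrt_pos.2 hx0
    have hy0 : (0 : ℝ) < y := by linarith
    have hly : l / 2 ≤ Real.log y := by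
      rw [hl, ← Real.log_sqrt hx0.le]
      exact Real.log_le_log hsx hge
    have hly0 : 0 < Real.log y := by linarith
    have hy2 : (2 : ℝ) ≤ y := by
      have : 1 < y := by
        have h1 := Real.log_pos_iff hy0.le |>.1 hly0
        exact_mod_cast h1
      exact_mod_cast this
    have hrA : (r : ℝ) ≤ Real.log y ^ ((A + 2 : ℕ) : ℝ) := by
      rw [Real.rpow_natCast]
      refine hrl.trans (le_trans ?_ (pow_le_pow_left₀ (by linarith) hly _))
      rw [div_pow, le_div_iff₀ (by positivity), pow_succ l (A + 1)]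
      exact mul_le_mul_of_nonneg_left h2A (by positivity)
    have h := hsw r (a : ZMod r) ((ZMod.isUnit_iff_coprime a r).2 ha) y hy2 hrA
    rw [Nat.floor_natCast, Real.rpow_natCast] at h
    refine h.trans ?_
    refine (div_le_div₀ (by positivity) (mul_le_mul_of_nonneg_left (Nat.cast_le.2 hy) hC.le)
      (by positivity) (pow_le_pow_left₀ (by linarith) hly _)).trans (le_of_eq ?_)
    rw [div_pow]
    field_simp

theorem ceil_facts {A x : ℕ} (hx : IsLargeFor A x) :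
    (x : ℝ) / Real.log x ^ (A + 1) ≤ (⌈(x : ℝ) / Real.log x ^ (A + 1)⌉₊ : ℝ) ∧
      (⌈(x : ℝ) / Real.log x ^ (A + 1)⌉₊ : ℝ) ≤ 2 * x / Real.log x ^ (A + 1) ∧
      (⌈(x : ℝ) / Real.log x ^ (A + 1)⌉₊ : ℝ) ≤ x / Real.log x ^ A := by
  obtain ⟨l, hl⟩ : ∃ l, l = Real.log x := ⟨_, rfl⟩
  have h4 := hx.four_le
  have hsq := hx.pow_le_sqrt
  rw [← hl] at h4 hsq ⊢
  have hl0 : 0 < l := by linarith
  have hx1 : (1 : ℝ) ≤ x := Nat.one_le_cast.2 (by have := hx.1; omega)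
  have hle : l ^ (A + 1) ≤ x := ((pow_le_pow_right₀ (by linarith) (by omega)).trans hsq).trans
    (Real.sqrt_le_self_iff.2 (Or.inr hx1))
  have h1 : (1 : ℝ) ≤ (x : ℝ) / l ^ (A + 1) := (one_le_div (by positivity)).2 hle
  have h2 := (Nat.ceil_lt_add_one (show (0 : ℝ) ≤ (x : ℝ) / l ^ (A + 1) by positivity)).le
  have h3 : 2 * (x : ℝ) / l ^ (A + 1) ≤ x / l ^ A := by
    rw [show (x : ℝ) / l ^ A = l * x / l ^ (A + 1) by rw [pow_succ]; field_simp]
    exact div_le_div_of_nonneg_right (mul_le_mul_of_nonneg_right (by linarith) (by linarith))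
      (by positivity)
  have h5 : 2 * (x : ℝ) / l ^ (A + 1) = 2 * ((x : ℝ) / l ^ (A + 1)) := by ring
  exact ⟨Nat.le_ceil _, by linarith, by linarith⟩

/-- **The large `x`.** -/
theorem exists_large_range (A : ℕ) : ∃ C : ℝ, ∀ x : ℕ, IsLargeFor A x → ∀ Q : ℕ,
    (x : ℝ) / Real.log x ^ A ≤ Q → Q ≤ x →
      |meanSquare x Q - x * Q * Real.log Q| ≤ C * (x * Q) := by
  obtain ⟨Cb, hCb, hbdh⟩ := BarbanDavenportHalberstam.exists_bdh (A + 1)
  obtain ⟨Cs, hCs, hsw⟩ := exists_small_modulus_error A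
  obtain ⟨B1, K1, hK1, hT⟩ := exists_sum_inv_totient
  obtain ⟨B2, K2, hK2, hS⟩ := exists_quadTot
  refine ⟨2 * Cb + 100 * Cs + 1000 + 4 * K1 + 2 * K2, fun x hx Q hAQ hQx => ?_⟩
  obtain ⟨Q0, hQ0⟩ : ∃ Q0, Q0 = ⌈(x : ℝ) / Real.log x ^ (A + 1)⌉₊ := ⟨_, rfl⟩
  obtain ⟨l, hl⟩ : ∃ l, l = Real.log x := ⟨_, rfl⟩
  obtain ⟨hc1, hc2, hc3⟩ := ceil_facts hx
  rw [← hQ0] at hc1 hc2 hc3
  have h4 := hx.four_le
  have hsq := hx.pow_le_sqrt
  have hsw' := hsw x hx
  have hb0 := hbdh x hx.1 Q0 hc1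
  rw [← hl] at hc1 hc2 hc3 h4 hsq hAQ hsw' hb0
  have hx3 := hx.1
  have hl0 : 0 < l := by linarith
  have hl1 : 1 ≤ l := by linarith
  have hx0 : (0 : ℝ) < x := Nat.cast_pos.2 (by omega)
  have hx1 : (1 : ℝ) ≤ x := Nat.one_le_cast.2 (by omega)
  have hQQ : Q0 ≤ Q := by exact_mod_cast hc3.trans hAQ
  have hQ0pos : (0 : ℝ) < Q0 := lt_of_lt_of_le (by positivity) hc1
  have hQ01 : 1 ≤ Q0 := by exact_mod_cast hQ0pos
  have hQ0x : Q0 ≤ x := hQQ.trans hQx
  have hQpos : (0 : ℝ) < Q := hQ0pos.trans_le (Nat.cast_le.2 hQQ)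
  have hQle : (Q : ℝ) ≤ x := Nat.cast_le.2 hQx
  obtain ⟨P, hP⟩ : ∃ P, P = (x : ℝ) * Q := ⟨_, rfl⟩
  rw [← hP]
  have hP0 : 0 ≤ P := hP ▸ by positivity
  -- powers of the logarithm
  have hpow : ∀ j, j ≤ A + 6 → (x : ℝ) * l ^ j ≤ P := fun j hj => by
    rw [hP]
    refine mul_le_mul_of_nonneg_left (le_trans ?_ hAQ) hx0.le
    rw [le_div_iff₀ (by positivity), ← pow_add]
    exact ((pow_le_pow_right₀ hl1 (by omega)).trans hsq).trans
      (Real.sqrt_le_self_iff.2 (Or.inr hx1))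
  obtain ⟨E, hE⟩ : ∃ E, E = Cs * x / l ^ (2 * A + 6) := ⟨_, rfl⟩
  have hE0 : 0 ≤ E := hE ▸ by positivity
  have hEpow : ∀ j, j ≤ A + 6 → (x : ℝ) * (E * l ^ j) ≤ Cs * P := fun j hj => by
    rw [hP, mul_left_comm Cs]
    refine mul_le_mul_of_nonneg_left ?_ hx0.le
    refine le_trans ?_ (mul_le_mul_of_nonneg_left hAQ hCs.le)
    rw [hE, div_mul_eq_mul_div, mul_div_assoc', div_le_div_iff₀ (by positivity) (by positivity),
      mul_assoc, ← pow_add]
    exact mul_le_mul_of_nonneg_left (pow_le_pow_right₀ hl1 (by omega)) (by positivity)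
  rw [← hE] at hsw'
  have hψ : ∀ y ≤ x, |psiNat y - y| ≤ E := fun y hy => by
    have h := hsw' 1 le_rfl (by rw [Nat.cast_one]; exact one_le_pow₀ hl1) 0
      (Nat.coprime_one_right 0) y hy
    rwa [psiAP_one, Nat.totient_one, Nat.cast_one, div_one] at h
  have hlogOne : ∀ q ≤ x, logOne q ≤ 2 * l := fun q hq => by
    rcases Nat.eq_zero_or_pos q with rfl | h
    · rw [logOne, Nat.cast_zero, Real.log_zero]
      linarith
    · rw [logOne]
      have := Real.log_le_log (Nat.cast_pos.2 h) (Nat.cast_le.2 hq : (q : ℝ) ≤ x)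
      linarith
  have hbad : ∀ q ∈ Icc 1 x, badSum q x ≤ 8 * l ^ 2 := fun q hq => by
    rw [mem_Icc] at hq
    refine (badSum_le hq.1).trans ?_
    calc 2 * logOne q * logOne x ≤ 2 * (2 * l) * (2 * l) := by
          refine mul_le_mul (mul_le_mul_of_nonneg_left (hlogOne q hq.2) two_pos.le)
            (hlogOne x le_rfl) (by linarith [one_le_logOne x]) (by positivity)
      _ = _ := by ring
  -- the moduli up to `Q0`
  have hV0 : meanSquare x Q0 ≤ 2 * Cb * P := by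
    refine (hb0 hQ0x).trans ?_
    rw [show 2 * Cb * P = Cb * ((x : ℝ) * (2 * Q)) by rw [hP]; ring, mul_assoc (x : ℝ)]
    refine mul_le_mul_of_nonneg_left (mul_le_mul_of_nonneg_left ?_ hx0.le) hCb.le
    refine (mul_le_mul_of_nonneg_right hc2 hl0.le).trans (le_trans (le_of_eq ?_)
      (mul_le_mul_of_nonneg_left hAQ two_pos.le))
    rw [pow_succ]
    field_simp
  have hQ0l : (Q0 : ℝ) * l ≤ 2 * Q := by
    refine (mul_le_mul_of_nonneg_right hc2 hl0.le).trans (le_trans (le_of_eq ?_)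
      (mul_le_mul_of_nonneg_left hAQ two_pos.le))
    rw [pow_succ]
    field_simp
  -- the others, one by one
  obtain ⟨D, hD⟩ : ∃ D, D = diagSum x := ⟨_, rfl⟩
  obtain ⟨SQ, hSQ⟩ : ∃ SQ, SQ = ∑ q ∈ Ioc Q0 Q,
      ∑ a ∈ unitResidues q, (psiAP x q a - x / q.totient) ^ 2 := ⟨_, rfl⟩
  have hsplit : meanSquare x Q = meanSquare x Q0 + SQ := by
    rw [hSQ, meanSquare, meanSquare, Icc_one_eq_Ioc, Icc_one_eq_Ioc,
      sum_Ioc_consecutive _ (Nat.zero_le Q0) hQQ]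
  obtain ⟨TD, hTD⟩ : ∃ TD, TD = ∑ q ∈ Ioc Q0 Q, ((q.totient : ℕ) : ℝ)⁻¹ := ⟨_, rfl⟩
  obtain ⟨OD, hOD⟩ : ∃ OD, OD = ∑ q ∈ Ioc Q0 Q, offDiag x q := ⟨_, rfl⟩
  have hone : |SQ - (((Q : ℝ) - Q0) * D + 2 * OD - (x : ℝ) ^ 2 * TD)| ≤
      (128 + 8 * Cs) * P := by
    have e : ((Q : ℝ) - Q0) * D + 2 * OD - (x : ℝ) ^ 2 * TD =
        ∑ q ∈ Ioc Q0 Q, (diagSum x + 2 * offDiag x q - (x : ℝ) ^ 2 / q.totient) := by
      rw [hOD, hTD, hD, sum_sub_distrib, sum_add_distrib, sum_const, Nat.card_Ioc, nsmul_eq_mul,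
        Nat.cast_sub hQQ, ← mul_sum, mul_sum _ _ ((x : ℝ) ^ 2)]
      simp only [div_eq_mul_inv]
    rw [e, hSQ, ← sum_sub_distrib]
    refine (abs_sum_le_sum_abs _ _).trans ?_
    refine (sum_le_sum (g := fun q : ℕ => (8 * l ^ 2) ^ 2 +
      2 * x * (E + 8 * l ^ 2) * (1 / (q.totient : ℝ))) fun q hq => ?_).trans ?_
    · rw [mem_Ioc] at hq
      have hq1 : 1 ≤ q := by omega
      have hb := hbad q (mem_Icc.2 ⟨hq1, hq.2.trans hQx⟩)
      refine (abs_variance_sub_le hq1 x (hψ x le_rfl)).trans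
        (add_le_add (pow_le_pow_left₀ (badSum_nonneg q x) hb 2) ?_)
      rw [mul_one_div]
      exact div_le_div_of_nonneg_right (mul_le_mul_of_nonneg_left (by linarith) (by positivity))
        (Nat.cast_nonneg _)
    rw [sum_add_distrib, sum_const, Nat.card_Ioc, nsmul_eq_mul, ← mul_sum]
    have h1 : ∑ q ∈ Ioc Q0 Q, 1 / (q.totient : ℝ) ≤ 4 * l ^ 2 := by
      refine (sum_le_sum_of_subset_of_nonneg (fun q hq => ?_) fun q _ _ => by positivity).trans
        ((BombieriVinogradov.sum_inv_totient_le Q).trans ?_)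
      · rw [mem_Ioc] at hq
        rw [mem_Icc]
        omega
      · refine (pow_le_pow_left₀ (by linarith [one_le_logOne Q]) (hlogOne Q hQx) 2).trans_eq ?_
        ring
    have h2 : ((Q - Q0 : ℕ) : ℝ) * (8 * l ^ 2) ^ 2 ≤ 64 * P := by
      have hl4 : l ^ 4 ≤ x :=
        ((pow_le_pow_right₀ hl1 (by omega)).trans hsq).trans (Real.sqrt_le_self_iff.2 (Or.inr hx1))
      calc ((Q - Q0 : ℕ) : ℝ) * (8 * l ^ 2) ^ 2 ≤ Q * (64 * x) := by
            refine mul_le_mul (Nat.cast_le.2 (Nat.sub_le Q Q0)) ?_ (by positivity) hQpos.le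
            linarith [show (8 * l ^ 2) ^ 2 = 64 * l ^ 4 by ring]
        _ = _ := by rw [hP]; ring
    refine (add_le_add h2 (mul_le_mul_of_nonneg_left h1 (by positivity))).trans ?_
    have := hEpow 2 (by omega)
    have := hpow 4 (by omega)
    linarith
  -- the diagonal
  have hdiag : |((Q : ℝ) - Q0) * D - P * l| ≤ (2 * Cs + 18) * P := by
    have h := abs_diagSum_sub_le (show 1 ≤ x by omega) (hψ x le_rfl)
    rw [← hD, ← hl] at h
    have h2 : E * l + 6 * x + 2 * √(x : ℝ) * l ^ 2 ≤ (Cs + 8) * x := by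
      have hE1 : E * l ≤ Cs * x := by
        rw [hE, div_mul_eq_mul_div, div_le_iff₀ (by positivity)]
        exact mul_le_mul_of_nonneg_left (le_self_pow₀ hl1 (by omega)) (by positivity)
      have h3 : √(x : ℝ) * l ^ 2 ≤ x := by
        refine (mul_le_mul_of_nonneg_left ((pow_le_pow_right₀ hl1 (by omega)).trans hsq)
          (Real.sqrt_nonneg _)).trans_eq ?_
        exact Real.mul_self_sqrt hx0.le
      linarith
    obtain ⟨d1, d2⟩ := abs_le.1 (h.trans h2)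
    have hD0 : 0 ≤ D := hD ▸ sum_nonneg fun n _ => sq_nonneg _
    have a1 := mul_le_mul_of_nonneg_left d1 hQpos.le
    have a2 := mul_le_mul_of_nonneg_left d2 hQpos.le
    have a3 : (Q0 : ℝ) * D ≤ Q0 * (x * l) + Q * ((Cs + 8) * x) := by
      have := mul_le_mul (Nat.cast_le.2 hQQ : (Q0 : ℝ) ≤ Q) (le_refl ((Cs + 8) * (x : ℝ)))
        (by positivity) hQpos.le
      have := mul_le_mul_of_nonneg_left d2 hQ0pos.le
      linarith
    have a4 : (Q0 : ℝ) * (x * l) ≤ 2 * P := by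
      rw [hP]
      calc (Q0 : ℝ) * (x * l) = x * (Q0 * l) := by ring
        _ ≤ x * (2 * Q) := mul_le_mul_of_nonneg_left hQ0l hx0.le
        _ = _ := by ring
    have a5 : (0 : ℝ) ≤ Q0 * D := by positivity
    rw [hP, abs_le]
    rw [hP] at a4
    constructor <;> linarith
  -- the pairs
  have hU : ∀ T : ℕ, Q0 ≤ T → T ≤ x →
      |2 * (∑ q ∈ Ioc T x, offDiag x q) - (x : ℝ) ^ 2 * quadTot ((x : ℝ) / T)| ≤
        (26 * Cs + 146) * P := by
    intro T hT hTx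
    have hT0 : (0 : ℝ) < T := hQ0pos.trans_le (Nat.cast_le.2 hT)
    refine (abs_sum_offDiag_sub_le (show 1 ≤ T by omega) (R := l ^ (A + 1)) ?_ hsw' hψ
      hbad).trans ?_
    · refine Nat.cast_div_le.trans ?_
      rw [div_le_iff₀ hT0]
      have h1 := (div_le_iff₀ (show 0 < l ^ (A + 1) by positivity)).1
        (hc1.trans (Nat.cast_le.2 hT))
      linarith
    · have := hEpow (A + 1) (by omega)
      have := hpow (A + 3) (by omega)
      have := hpow (A + 1) (by omega)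
      have h5 : l ^ (A + 5) ≤ P :=
        (le_mul_of_one_le_left (by positivity) hx1).trans (hpow (A + 5) (by omega))
      have e : 2 * l ^ (A + 1) * ((x : ℝ) * (13 * E + 8 * l ^ 2 + 1) + (8 * l ^ 2) ^ 2) =
          26 * ((x : ℝ) * (E * l ^ (A + 1))) + 16 * ((x : ℝ) * l ^ (A + 3)) +
            2 * ((x : ℝ) * l ^ (A + 1)) + 128 * l ^ (A + 5) := by ring
      linarith
  -- the totient sums
  have hTT : ∀ T : ℕ, Q0 ≤ T → T ≤ x →
      |(x : ℝ) ^ 2 * (∑ q ∈ Icc 1 T, ((q.totient : ℕ) : ℝ)⁻¹) -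
        (x : ℝ) ^ 2 * (titchmarshConst * Real.log T + B1)| ≤ 2 * K1 * P := by
    intro T hle hTx
    have hT0 : (0 : ℝ) < T := hQ0pos.trans_le (Nat.cast_le.2 hle)
    rw [← mul_sub, abs_mul, abs_of_nonneg (sq_nonneg (x : ℝ))]
    refine (mul_le_mul_of_nonneg_left (hT T (by omega)) (sq_nonneg _)).trans ?_
    have hlT : 1 + Real.log T ≤ 2 * l := by
      have := Real.log_le_log hT0 (Nat.cast_le.2 hTx : (T : ℝ) ≤ x)
      linarith
    have hxT : (x : ℝ) ≤ T * l ^ (A + 1) :=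
      (div_le_iff₀ (show 0 < l ^ (A + 1) by positivity)).1 (hc1.trans (Nat.cast_le.2 hle))
    rw [← mul_div_assoc, div_le_iff₀ hT0]
    calc (x : ℝ) ^ 2 * (K1 * (1 + Real.log T)) = K1 * (x * (x * (1 + Real.log T))) := by ring
      _ ≤ K1 * (x * (T * l ^ (A + 1) * (2 * l))) := by
          refine mul_le_mul_of_nonneg_left (mul_le_mul_of_nonneg_left
            (mul_le_mul hxT hlT ?_ (by positivity)) hx0.le) hK1
          linarith [Real.log_natCast_nonneg T]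
      _ = 2 * K1 * ((x : ℝ) * l ^ (A + 2)) * T := by ring
      _ ≤ 2 * K1 * P * T := mul_le_mul_of_nonneg_right
          (mul_le_mul_of_nonneg_left (hpow _ (by omega)) (by positivity)) hT0.le
  have hTD : TD = (∑ q ∈ Icc 1 Q, ((q.totient : ℕ) : ℝ)⁻¹) -
      ∑ q ∈ Icc 1 Q0, ((q.totient : ℕ) : ℝ)⁻¹ := by
    rw [hTD, Icc_one_eq_Ioc, Icc_one_eq_Ioc, ← sum_Ioc_consecutive _ (Nat.zero_le Q0) hQQ,
      add_sub_cancel_left]
  have hOD : OD = (∑ q ∈ Ioc Q0 x, offDiag x q) - ∑ q ∈ Ioc Q x, offDiag x q := by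
    rw [hOD, ← sum_Ioc_consecutive _ hQQ hQx, add_sub_cancel_right]
  -- the sums over the complementary divisors
  have hSS : ∀ T : ℕ, Q0 ≤ T → T ≤ Q →
      |(x : ℝ) ^ 2 * quadTot ((x : ℝ) / T) - ((x : ℝ) ^ 2 *
        (titchmarshConst * (l - Real.log T) + B2) + (x : ℝ) * T * (l - Real.log T))| ≤ K2 * P := by
    intro T hle hTQ
    have hT0 : (0 : ℝ) < T := hQ0pos.trans_le (Nat.cast_le.2 hle)
    have h := hS ((x : ℝ) / T) ((one_le_div hT0).2 (Nat.cast_le.2 (hTQ.trans hQx)))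
    rw [Real.log_div hx0.ne' hT0.ne', ← hl] at h
    have h2 := mul_le_mul_of_nonneg_left h (sq_nonneg (x : ℝ))
    rw [← abs_of_nonneg (sq_nonneg (x : ℝ)), ← abs_mul, abs_of_nonneg (sq_nonneg (x : ℝ)),
      mul_sub, mul_add,
      show (x : ℝ) ^ 2 * ((l - Real.log T) / ((x : ℝ) / T)) = x * T * (l - Real.log T) by
        field_simp] at h2
    refine h2.trans ?_
    rw [show (x : ℝ) ^ 2 * (K2 / ((x : ℝ) / T)) = K2 * ((x : ℝ) * T) by field_simp, hP]
    exact mul_le_mul_of_nonneg_left (mul_le_mul_of_nonneg_left (Nat.cast_le.2 hTQ) hx0.le) hK2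
  -- together
  have hL0 : (x : ℝ) * Q0 * (l - Real.log Q0) ≤ 2 * P ∧
      0 ≤ (x : ℝ) * Q0 * (l - Real.log Q0) := by
    have h0 := Real.log_natCast_nonneg Q0
    have h1 := Real.log_le_log hQ0pos (Nat.cast_le.2 hQ0x : (Q0 : ℝ) ≤ x)
    rw [← hl] at h1
    refine ⟨?_, mul_nonneg (by positivity) (by linarith)⟩
    calc (x : ℝ) * Q0 * (l - Real.log Q0) ≤ (x : ℝ) * Q0 * l :=
          mul_le_mul_of_nonneg_left (by linarith) (by positivity)
      _ = x * (Q0 * l) := by ring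
      _ ≤ x * (2 * Q) := mul_le_mul_of_nonneg_left hQ0l hx0.le
      _ = _ := by rw [hP]; ring
  have h1 := abs_le.1 hone
  have h2 := abs_le.1 hdiag
  have u0 := abs_le.1 (hU Q0 le_rfl hQ0x)
  have u1 := abs_le.1 (hU Q hQQ hQx)
  have t0 := abs_le.1 (hTT Q0 le_rfl hQ0x)
  have t1 := abs_le.1 (hTT Q hQQ hQx)
  have s0 := abs_le.1 (hSS Q0 le_rfl hQQ)
  have s1 := abs_le.1 (hSS Q hQQ le_rfl)
  have hV := meanSquare_nonneg x Q0
  have e : (x : ℝ) * Q * (l - Real.log Q) = P * l - P * Real.log Q := by rw [hP]; ring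
  have hCsP : 0 ≤ Cs * P := mul_nonneg hCs.le hP0
  have hCbP : 0 ≤ Cb * P := mul_nonneg hCb.le hP0
  rw [hTD, hOD] at h1
  rw [hsplit, abs_le]
  constructor <;>
    linarith [h1.1, h1.2, h2.1, h2.2, u0.1, u0.2, u1.1, u1.2, t0.1, t0.2, t1.1, t1.2, s0.1, s0.2,
      s1.1, s1.2, hL0.1, hL0.2]

/-- **The theorem of Montgomery and Hooley.** -/
theorem exists_montgomery_hooley (A : ℕ) : ∃ C : ℝ, 0 < C ∧ ∀ x : ℕ, 3 ≤ x → ∀ Q : ℕ,
    (x : ℝ) / Real.log x ^ A ≤ Q → Q ≤ x →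
      |meanSquare x Q - x * Q * Real.log Q| ≤ C * (x * Q) := by
  obtain ⟨C1, h1⟩ := exists_large_range A
  obtain ⟨Cb, hCb, hbdh⟩ := BarbanDavenportHalberstam.exists_bdh A
  obtain ⟨x0, hx0⟩ := eventually_atTop.1 (eventually_isLargeFor A)
  refine ⟨|C1| + (Cb + 1) * (Real.log x0 + 1), add_pos_of_nonneg_of_pos (abs_nonneg _)
    (mul_pos (by linarith) (by linarith [Real.log_natCast_nonneg x0])), fun x hx Q hAQ hQx => ?_⟩
  have hP : 0 ≤ (x : ℝ) * Q := by positivity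
  have hlx0 := Real.log_natCast_nonneg x0
  rw [add_mul]
  rcases le_or_gt x0 x with h | h
  · refine le_add_of_le_of_nonneg ((h1 x (hx0 x h) Q hAQ hQx).trans
      (mul_le_mul_of_nonneg_right (le_abs_self C1) hP)) ?_
    exact mul_nonneg (mul_nonneg (by linarith) (by linarith)) hP
  · refine le_add_of_nonneg_of_le (mul_nonneg (abs_nonneg _) hP) ?_
    have hb := hbdh x hx Q hAQ hQx
    have hl : Real.log x ≤ Real.log x0 :=
      Real.log_le_log (Nat.cast_pos.2 (by omega)) (Nat.cast_le.2 h.le)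
    have hlQ : Real.log Q ≤ Real.log x0 := by
      rcases Nat.eq_zero_or_pos Q with rfl | hQ
      · simpa using hlx0
      · exact Real.log_le_log (Nat.cast_pos.2 hQ) (Nat.cast_le.2 (by omega))
    have hV := meanSquare_nonneg x Q
    rw [← meanSquare] at hb
    have a1 := mul_le_mul_of_nonneg_left (mul_le_mul_of_nonneg_left hl hP) hCb.le
    have a2 := mul_le_mul_of_nonneg_left hlQ hP
    have a3 := mul_nonneg hP (Real.log_natCast_nonneg Q)
    have a4 : 0 ≤ Cb * ((x : ℝ) * Q) := mul_nonneg hCb.le hP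
    have a5 : 0 ≤ Cb * ((x : ℝ) * Q * Real.log x0) := mul_nonneg hCb.le (mul_nonneg hP hlx0)
    rw [abs_le]
    constructor <;> linarith

/-- `Q = x`: the mean square is `∼ x ^ 2 log x`. -/
theorem tendsto_meanSquare_self : Tendsto
    (fun x : ℕ => meanSquare x x / ((x : ℝ) ^ 2 * Real.log x)) atTop (𝓝 1) := by
  obtain ⟨C, hC, h⟩ := exists_montgomery_hooley 0
  rw [← tendsto_sub_nhds_zero_iff]
  refine squeeze_zero_norm' (a := fun x : ℕ => C / Real.log x) ?_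
    (tendsto_const_nhds.div_atTop (Real.tendsto_log_atTop.comp tendsto_natCast_atTop_atTop))
  filter_upwards [eventually_ge_atTop 3] with x hx
  have hl : 0 < Real.log x := Real.log_pos (Nat.one_lt_cast.2 (by omega))
  have hx0 : (0 : ℝ) < x := Nat.cast_pos.2 (by omega)
  have h1 := h x hx x (by simp) le_rfl
  rw [Real.norm_eq_abs, div_sub_one (by positivity), abs_div,
    abs_of_pos (show 0 < (x : ℝ) ^ 2 * Real.log x by positivity),
    div_le_div_iff₀ (by positivity) hl, sq]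
  refine (mul_le_mul_of_nonneg_right h1 hl.le).trans_eq ?_
  ring

end FA.MontgomeryHooley

end
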