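import Fermat.Agent.BarbanDavenportHalberstam.Basic
import Mathlib.NumberTheory.Chebyshev

/-!
# The mean square over the residues of one modulus

`∑_{(a, q) = 1} (ψ (x; q, a) - x / φ q) ^ 2` is, up to a small error, the number of weighted pairs
`n ≡ m [MOD q]` less `x ^ 2 / φ q`, and `∑ Λ n ^ 2 = x log x + O (x)`.
-/

set_option autoImplicit false

noncomputable section

namespace FA.MontgomeryHooley

open Finset ArithmeticFunction
open FA.ThreePrimes (logOne unitResidues one_le_logOne)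
open FA.BombieriVinogradov (psiAP psiAP_nonneg)

/-- `ψ` at a natural number. -/
def psiNat (x : ℕ) : ℝ := ∑ n ∈ Icc 1 x, Λ n

/-- `∑ Λ n` over the `n ≤ x` not prime to `q`. -/
def badSum (q x : ℕ) : ℝ := ∑ n ∈ (Icc 1 x).filter (fun n => ¬ n.Coprime q), Λ n

/-- `∑ Λ n ^ 2`. -/
def diagSum (x : ℕ) : ℝ := ∑ n ∈ Icc 1 x, Λ n ^ 2

/-- `∑ Λ m Λ n` over `m < n ≤ x` with `q ∣ n - m`. -/
def offDiag (x q : ℕ) : ℝ :=
  ∑ m ∈ Icc 1 x, Λ m * ∑ n ∈ (Ioc m x).filter (fun n => q ∣ n - m), Λ n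

theorem Icc_one_eq_Ioc (x : ℕ) : Icc 1 x = Ioc 0 x := rfl

theorem psiNat_eq_psi (x : ℕ) : psiNat x = Chebyshev.psi (x : ℝ) := by
  rw [psiNat, Chebyshev.psi, Nat.floor_natCast, Icc_one_eq_Ioc]

theorem psiNat_nonneg (x : ℕ) : 0 ≤ psiNat x := sum_nonneg fun _ _ => vonMangoldt_nonneg

theorem log_four_add_four_le : Real.log 4 + 4 ≤ 6 := by
  rw [show (4 : ℝ) = 2 ^ 2 by norm_num, Real.log_pow]
  have := Real.log_le_sub_one_of_pos (two_pos : (0 : ℝ) < 2)
  push_cast
  norm_num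
  linarith

theorem psiNat_le (x : ℕ) : psiNat x ≤ 6 * x := by
  rw [psiNat_eq_psi]
  exact (Chebyshev.psi_le_const_mul_self (Nat.cast_nonneg x)).trans
    (mul_le_mul_of_nonneg_right log_four_add_four_le (Nat.cast_nonneg x))

theorem badSum_nonneg (q x : ℕ) : 0 ≤ badSum q x := sum_nonneg fun _ _ => vonMangoldt_nonneg

theorem badSum_le {q x : ℕ} (hq : 1 ≤ q) : badSum q x ≤ 2 * logOne q * logOne x := by
  have : NeZero q := ⟨by omega⟩
  rw [badSum, Icc_one_eq_Ioc]
  exact BarbanDavenportHalberstam.bad_sum_log_le q x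

theorem psiAP_one (x a : ℕ) : psiAP x 1 a = psiNat x := by
  rw [psiAP, psiNat, filter_true_of_mem fun n _ => Subsingleton.elim _ _]

theorem natCast_eq_iff_dvd_sub {q m n : ℕ} (h : m ≤ n) :
    (n : ZMod q) = (m : ZMod q) ↔ q ∣ n - m := by
  rw [eq_comm, ZMod.natCast_eq_natCast_iff]
  exact Nat.modEq_iff_dvd' h

/-- **All residues**: the diagonal and twice the pairs `m < n`. -/
theorem sum_mul_psiAP_eq (x q : ℕ) :
    ∑ m ∈ Icc 1 x, Λ m * psiAP x q m = diagSum x + 2 * offDiag x q := by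
  classical
  have h1 : ∀ m ∈ Icc 1 x, psiAP x q m = Λ m +
      ((∑ n ∈ (Ioc m x).filter (fun n => q ∣ n - m), Λ n) +
        ∑ n ∈ (Ico 1 m).filter (fun n => q ∣ m - n), Λ n) := fun m hm => by
    rw [mem_Icc] at hm
    rw [psiAP, show (Icc 1 x).filter (fun n : ℕ => (n : ZMod q) = (m : ZMod q)) =
      insert m ((Ioc m x).filter (fun n => q ∣ n - m) ∪
        (Ico 1 m).filter (fun n => q ∣ m - n)) by
      ext n
      simp only [mem_filter, mem_insert, mem_union, mem_Icc, mem_Ioc, mem_Ico]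
      constructor
      · rintro ⟨h1, h2⟩
        rcases lt_trichotomy n m with h | h | h
        · exact Or.inr (Or.inr ⟨⟨h1.1, h⟩, (natCast_eq_iff_dvd_sub h.le).1 h2.symm⟩)
        · exact Or.inl h
        · exact Or.inr (Or.inl ⟨⟨h, h1.2⟩, (natCast_eq_iff_dvd_sub h.le).1 h2⟩)
      · rintro (rfl | ⟨⟨h, h'⟩, hd⟩ | ⟨⟨h, h'⟩, hd⟩)
        · exact ⟨hm, rfl⟩
        · exact ⟨⟨by omega, h'⟩, (natCast_eq_iff_dvd_sub h.le).2 hd⟩
        · exact ⟨⟨h, by omega⟩, ((natCast_eq_iff_dvd_sub h'.le).2 hd).symm⟩]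
    rw [sum_insert (by simp), sum_union (disjoint_left.2 fun n hn hn' => by
      simp only [mem_filter, mem_Ioc] at hn
      simp only [mem_filter, mem_Ico] at hn'
      omega)]
  have hswap : ∑ m ∈ Icc 1 x, Λ m * ∑ n ∈ (Ico 1 m).filter (fun n => q ∣ m - n), Λ n =
      offDiag x q := by
    simp only [offDiag, mul_sum]
    rw [sum_comm' (t' := Icc 1 x)
      (s' := fun n => (Ioc n x).filter (fun m => q ∣ m - n)) (h := fun m n => by
        simp only [mem_filter, mem_Icc, mem_Ico, mem_Ioc]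
        constructor
        · rintro ⟨⟨h1, h2⟩, ⟨h3, h4⟩, h5⟩
          exact ⟨⟨⟨h4, h2⟩, h5⟩, h3, by omega⟩
        · rintro ⟨⟨⟨h1, h2⟩, h3⟩, h4, h5⟩
          exact ⟨⟨by omega, h2⟩, ⟨h4, h1⟩, h3⟩)]
    exact sum_congr rfl fun n _ => sum_congr rfl fun m _ => mul_comm _ _
  rw [sum_congr rfl fun m hm => by rw [h1 m hm, mul_add, mul_add], sum_add_distrib,
    sum_add_distrib, hswap, ← offDiag, diagSum, two_mul]
  simp only [sq]

theorem filter_coprime_mod_eq {q x a : ℕ} (ha : a ∈ unitResidues q) :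
    (Icc 1 x).filter (fun n : ℕ => (n : ZMod q) = (a : ZMod q)) =
      ((Icc 1 x).filter (fun n => n.Coprime q)).filter (fun n => n % q = a) := by
  rw [unitResidues, mem_filter, mem_range] at ha
  rw [filter_filter]
  refine filter_congr fun n _ => ?_
  rw [ZMod.natCast_eq_natCast_iff', Nat.mod_eq_of_lt ha.1]
  refine ⟨fun h => ⟨?_, h⟩, And.right⟩
  rw [Nat.coprime_comm, Nat.Coprime, Nat.gcd_rec, h, Nat.gcd_comm]
  exact ha.2

theorem psiAP_mod (x q n : ℕ) : psiAP x q (n % q) = psiAP x q n := by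
  simp [psiAP, ZMod.natCast_mod]

theorem mod_mem_unitResidues {q n : ℕ} (hq : 1 ≤ q) (h : n.Coprime q) :
    n % q ∈ unitResidues q := by
  rw [unitResidues, mem_filter, mem_range]
  refine ⟨Nat.mod_lt _ hq, ?_⟩
  rw [Nat.Coprime, Nat.gcd_comm, ← Nat.gcd_rec, Nat.gcd_comm]
  exact h

theorem sum_units_psiAP {q : ℕ} (hq : 1 ≤ q) (x : ℕ) :
    ∑ a ∈ unitResidues q, psiAP x q a = psiNat x - badSum q x := by
  rw [show psiNat x - badSum q x = ∑ n ∈ (Icc 1 x).filter (fun n => n.Coprime q), Λ n by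
    rw [psiNat, badSum, ← sum_filter_add_sum_filter_not (Icc 1 x) (fun n => n.Coprime q)]
    ring,
    ← sum_fiberwise_of_maps_to fun n hn => mod_mem_unitResidues hq (mem_filter.1 hn).2]
  exact sum_congr rfl fun a ha => sum_congr (filter_coprime_mod_eq ha) fun _ _ => rfl

theorem sum_units_psiAP_sq {q : ℕ} (hq : 1 ≤ q) (x : ℕ) :
    ∑ a ∈ unitResidues q, psiAP x q a ^ 2 =
      ∑ n ∈ (Icc 1 x).filter (fun n => n.Coprime q), Λ n * psiAP x q n := by
  rw [← sum_fiberwise_of_maps_to fun n hn => mod_mem_unitResidues hq (mem_filter.1 hn).2]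
  refine sum_congr rfl fun a ha => ?_
  rw [← filter_coprime_mod_eq ha, sq]
  nth_rewrite 1 [psiAP]
  rw [sum_mul]
  refine sum_congr rfl fun n hn => ?_
  rw [mem_filter] at hn
  simp only [psiAP, hn.2]

theorem psiAP_le_badSum {q m : ℕ} (x : ℕ) (hm : ¬ m.Coprime q) : psiAP x q m ≤ badSum q x := by
  refine sum_le_sum_of_subset_of_nonneg (fun n hn => ?_) fun _ _ _ => vonMangoldt_nonneg
  rw [mem_filter] at hn ⊢
  refine ⟨hn.1, fun h => hm ?_⟩
  have := (ZMod.natCast_eq_natCast_iff _ _ _).1 hn.2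
  rw [Nat.Coprime, ← this.gcd_eq]
  exact h

theorem sum_noncoprime_mul_psiAP (x q : ℕ) :
    0 ≤ ∑ m ∈ (Icc 1 x).filter (fun n => ¬ n.Coprime q), Λ m * psiAP x q m ∧
      ∑ m ∈ (Icc 1 x).filter (fun n => ¬ n.Coprime q), Λ m * psiAP x q m ≤ badSum q x ^ 2 := by
  refine ⟨sum_nonneg fun m _ => mul_nonneg vonMangoldt_nonneg (psiAP_nonneg x q m), ?_⟩
  rw [sq, badSum, sum_mul]
  exact sum_le_sum fun m hm =>
    mul_le_mul_of_nonneg_left (psiAP_le_badSum x (mem_filter.1 hm).2) vonMangoldt_nonneg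

/-- **One modulus.** -/
theorem abs_variance_sub_le {q : ℕ} (hq : 1 ≤ q) (x : ℕ) {E : ℝ} (hψ : |psiNat x - x| ≤ E) :
    |(∑ a ∈ unitResidues q, (psiAP x q a - x / q.totient) ^ 2) -
        (diagSum x + 2 * offDiag x q - (x : ℝ) ^ 2 / q.totient)| ≤
      badSum q x ^ 2 + 2 * x * (E + badSum q x) / q.totient := by
  obtain ⟨h0, h1⟩ := sum_noncoprime_mul_psiAP x q
  have hφ : (0 : ℝ) < q.totient := Nat.cast_pos.2 (Nat.totient_pos.2 hq)
  have hB := badSum_nonneg q x
  have hexp : ∑ a ∈ unitResidues q, (psiAP x q a - x / q.totient) ^ 2 =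
      ∑ a ∈ unitResidues q, psiAP x q a ^ 2 -
        2 * ((x : ℝ) / q.totient) * (psiNat x - badSum q x) + (x : ℝ) ^ 2 / q.totient := by
    rw [← sum_units_psiAP hq x, mul_sum, ← sum_sub_distrib,
      show (x : ℝ) ^ 2 / q.totient = ∑ _a ∈ unitResidues q, ((x : ℝ) / q.totient) ^ 2 by
        rw [sum_const, ThreePrimes.card_unitResidues, nsmul_eq_mul]
        field_simp,
      ← sum_add_distrib]
    exact sum_congr rfl fun a _ => by ring
  have hsplit := sum_filter_add_sum_filter_not (Icc 1 x) (fun n => n.Coprime q)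
    fun n => Λ n * psiAP x q n
  rw [← sum_units_psiAP_sq hq x, sum_mul_psiAP_eq] at hsplit
  have e : (∑ a ∈ unitResidues q, (psiAP x q a - x / q.totient) ^ 2) -
      (diagSum x + 2 * offDiag x q - (x : ℝ) ^ 2 / q.totient) =
      -(∑ m ∈ (Icc 1 x).filter (fun n => ¬ n.Coprime q), Λ m * psiAP x q m) +
        2 * ((x : ℝ) / q.totient) * (x - psiNat x + badSum q x) := by
    rw [hexp, ← hsplit]
    field_simp
    ring
  have hbd : |(x : ℝ) - psiNat x + badSum q x| ≤ E + badSum q x :=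
    (abs_add_le _ _).trans (by rw [abs_sub_comm, abs_of_nonneg hB]; linarith)
  rw [e]
  refine (abs_add_le _ _).trans (add_le_add ?_ ?_)
  · rwa [abs_neg, abs_of_nonneg h0]
  · rw [abs_mul, abs_of_nonneg (by positivity : (0 : ℝ) ≤ 2 * ((x : ℝ) / q.totient))]
    refine (mul_le_mul_of_nonneg_left hbd (by positivity)).trans (le_of_eq ?_)
    ring

theorem psi_log_defect_le : ∀ N : ℕ, 1 ≤ N →
    ∑ n ∈ Icc 1 N, Λ n * (Real.log N - Real.log n) ≤ 6 * N := by
  intro N hN
  induction N, hN using Nat.le_induction with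
  | base => simp
  | succ N hN ih =>
    rw [sum_Icc_succ_top (by omega), sub_self, mul_zero, add_zero]
    have hN0 : (0 : ℝ) < N := Nat.cast_pos.2 hN
    have hl : Real.log ((N + 1 : ℕ) : ℝ) - Real.log N ≤ 1 / N := by
      rw [← Real.log_div (by positivity) hN0.ne']
      refine (Real.log_le_sub_one_of_pos (by positivity)).trans (le_of_eq ?_)
      push_cast
      field_simp
      ring
    have e : ∑ n ∈ Icc 1 N, Λ n * (Real.log ((N + 1 : ℕ) : ℝ) - Real.log n) =
        (∑ n ∈ Icc 1 N, Λ n * (Real.log N - Real.log n)) +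
          psiNat N * (Real.log ((N + 1 : ℕ) : ℝ) - Real.log N) := by
      rw [psiNat, sum_mul, ← sum_add_distrib]
      exact sum_congr rfl fun n _ => by ring
    have h6 : psiNat N * (Real.log ((N + 1 : ℕ) : ℝ) - Real.log N) ≤ 6 := by
      refine (mul_le_mul_of_nonneg_left hl (psiNat_nonneg N)).trans ?_
      rw [mul_one_div, div_le_iff₀ hN0]
      exact psiNat_le N
    rw [e]
    push_cast at ih h6 ⊢
    linarith

/-- **`∑ Λ n ^ 2 = x log x + O (x)`.** -/
theorem abs_diagSum_sub_le {x : ℕ} (hx : 1 ≤ x) {E : ℝ} (hψ : |psiNat x - x| ≤ E) :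
    |diagSum x - x * Real.log x| ≤
      E * Real.log x + 6 * x + 2 * √(x : ℝ) * Real.log x ^ 2 := by
  have hl := Real.log_natCast_nonneg x
  obtain ⟨hψ1, hψ2⟩ := abs_le.1 hψ
  have hlogn : ∀ n ∈ Icc 1 x, Real.log n ≤ Real.log x := fun n hn => by
    rw [mem_Icc] at hn
    exact Real.log_le_log (Nat.cast_pos.2 hn.1) (Nat.cast_le.2 hn.2)
  have hup : diagSum x ≤ psiNat x * Real.log x := by
    rw [psiNat, sum_mul, diagSum]
    refine sum_le_sum fun n hn => ?_
    rw [sq]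
    exact mul_le_mul_of_nonneg_left (vonMangoldt_le_log.trans (hlogn n hn)) vonMangoldt_nonneg
  have hlow : psiNat x * Real.log x - 6 * x - Real.log x * (2 * √(x : ℝ) * Real.log x) ≤
      diagSum x := by
    have hterm : ∑ n ∈ Icc 1 x, (Λ n * Real.log n - Λ n ^ 2) ≤
        Real.log x * ∑ n ∈ (Icc 1 x).filter (fun n => ¬ n.Prime), Λ n := by
      rw [mul_sum, sum_filter]
      refine sum_le_sum fun n hn => ?_
      by_cases h : n.Prime
      · rw [if_neg (not_not.2 h), vonMangoldt_apply_prime h]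
        exact le_of_eq (by ring)
      · rw [if_pos h, mul_comm (Real.log (x : ℝ))]
        exact (sub_le_self _ (sq_nonneg _)).trans
          (mul_le_mul_of_nonneg_left (hlogn n hn) vonMangoldt_nonneg)
    have hnp : ∑ n ∈ (Icc 1 x).filter (fun n => ¬ n.Prime), Λ n ≤
        2 * √(x : ℝ) * Real.log x := by
      have h := Chebyshev.psi_sub_theta_le (x := (x : ℝ)) (by exact_mod_cast hx)
      rw [Chebyshev.psi_sub_theta_eq_sum_not_prime, Nat.floor_natCast] at h
      exact h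
    have h2 := psi_log_defect_le x hx
    have e : ∑ n ∈ Icc 1 x, (Λ n * Real.log n - Λ n ^ 2) =
        psiNat x * Real.log x - (∑ n ∈ Icc 1 x, Λ n * (Real.log x - Real.log n)) - diagSum x := by
      rw [psiNat, diagSum, sum_mul, ← sum_sub_distrib, ← sum_sub_distrib]
      exact sum_congr rfl fun n _ => by ring
    linarith [mul_le_mul_of_nonneg_left hnp hl]
  have hE1 := mul_le_mul_of_nonneg_right hψ1 hl
  have hE2 := mul_le_mul_of_nonneg_right hψ2 hl
  have hp : 0 ≤ √(x : ℝ) * Real.log x ^ 2 := by positivity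
  have hx0 : (0 : ℝ) ≤ x := Nat.cast_nonneg x
  rw [abs_le]
  constructor <;> nlinarith

end FA.MontgomeryHooley

end
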