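import Fermat.Agent.MontgomeryHooley.MeanSquare
import Fermat.Agent.MontgomeryHooley.TotientSums

/-!
# Hooley's switch to the complementary divisor

The pairs `m < n ≤ x` with `q ∣ n - m`, `q > T`, are those with `n - m = q r`, `r ≤ x / T`, so a
theorem about small moduli counts them: they come to
`x ^ 2 / 2 · ∑_{r ≤ x/T} (1 - r T/x) ^ 2 / φ r`.
-/

set_option autoImplicit false

noncomputable section

namespace FA.MontgomeryHooley

open Finset ArithmeticFunction
open FA.BombieriVinogradov (psiAP psiAP_nonneg)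

/-- `∑ Λ m Λ n` over `m + r T < n ≤ x` with `r ∣ n - m`. -/
def switchSum (x T r : ℕ) : ℝ :=
  ∑ m ∈ Icc 1 x, Λ m * ∑ n ∈ (Ioc (m + r * T) x).filter (fun n => r ∣ n - m), Λ n

theorem card_divisor_switch {x T d : ℕ} (hd : 1 ≤ d) (hdx : d ≤ x) (hT : 1 ≤ T) :
    ((Ioc T x).filter (fun q => q ∣ d)).card =
      ((Icc 1 (x / T)).filter (fun r => r ∣ d ∧ r * T < d)).card := by
  refine card_nbij' (fun q => d / q) (fun r => d / r) (fun q hq => ?_) (fun r hr => ?_)
    (fun q hq => ?_) (fun r hr => ?_)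
  · simp only [coe_filter, Set.mem_ofPred_eq, mem_Ioc, mem_Icc] at hq ⊢
    obtain ⟨⟨h1, -⟩, h3⟩ := hq
    have h4 : d / q * T < d := by
      calc d / q * T < d / q * q := Nat.mul_lt_mul_of_pos_left h1
            (Nat.div_pos (Nat.le_of_dvd hd h3) (by omega))
        _ = d := Nat.div_mul_cancel h3
    exact ⟨⟨Nat.div_pos (Nat.le_of_dvd hd h3) (by omega),
      (Nat.le_div_iff_mul_le hT).2 (h4.le.trans hdx)⟩, Nat.div_dvd_of_dvd h3, h4⟩
  · simp only [coe_filter, Set.mem_ofPred_eq, mem_Ioc, mem_Icc] at hr ⊢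
    obtain ⟨⟨h1, -⟩, h3, h4⟩ := hr
    refine ⟨⟨?_, (Nat.div_le_self d r).trans hdx⟩, Nat.div_dvd_of_dvd h3⟩
    by_contra hle
    have := Nat.mul_le_mul_left r (not_lt.1 hle)
    rw [Nat.mul_div_cancel' h3] at this
    omega
  · simp only [coe_filter, Set.mem_ofPred_eq] at hq
    exact Nat.div_div_self hq.2 (by omega)
  · simp only [coe_filter, Set.mem_ofPred_eq] at hr
    exact Nat.div_div_self hr.2.1 (by omega)

/-- **The switch.** -/
theorem sum_offDiag_eq {x T : ℕ} (hT : 1 ≤ T) :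
    ∑ q ∈ Ioc T x, offDiag x q = ∑ r ∈ Icc 1 (x / T), switchSum x T r := by
  classical
  have hs : ∀ r, switchSum x T r = ∑ m ∈ Icc 1 x, Λ m *
      ∑ n ∈ Ioc m x, if r ∣ n - m ∧ r * T < n - m then Λ n else 0 := fun r =>
    sum_congr rfl fun m _ => by
      rw [← sum_filter]
      refine congrArg (Λ m * ·) (sum_congr ?_ fun _ _ => rfl)
      ext n
      simp only [mem_filter, mem_Ioc]
      exact ⟨fun h => ⟨⟨by omega, h.1.2⟩, h.2, by omega⟩, fun h => ⟨⟨by omega, h.1.2⟩, h.2.1⟩⟩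
  simp only [offDiag, hs, sum_filter]
  rw [sum_comm, sum_comm (s := Icc 1 (x / T))]
  refine sum_congr rfl fun m _ => ?_
  rw [← mul_sum, ← mul_sum, sum_comm, sum_comm (s := Icc 1 (x / T))]
  refine congrArg (Λ m * ·) (sum_congr rfl fun n hn => ?_)
  rw [mem_Ioc] at hn
  rw [← sum_filter, ← sum_filter, sum_const, sum_const,
    card_divisor_switch (show 1 ≤ n - m by omega) (by omega) hT]

theorem inner_eq {x r m k : ℕ} (hk : m ≤ k) (hkx : k ≤ x) :
    ∑ n ∈ (Ioc k x).filter (fun n => r ∣ n - m), Λ n = psiAP x r m - psiAP k r m := by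
  have e : (Ioc k x).filter (fun n => r ∣ n - m) =
      (Ioc k x).filter (fun n : ℕ => (n : ZMod r) = (m : ZMod r)) :=
    filter_congr fun n hn => (natCast_eq_iff_dvd_sub (hk.trans (mem_Ioc.1 hn).1.le)).symm
  rw [e, psiAP, psiAP, sum_filter, sum_filter, sum_filter, Icc_one_eq_Ioc, Icc_one_eq_Ioc,
    ← sum_Ioc_consecutive _ (Nat.zero_le k) hkx, add_sub_cancel_left]

theorem inner_le_badSum {x r m k : ℕ} (hk : m ≤ k) (hm : ¬ m.Coprime r) :
    ∑ n ∈ (Ioc k x).filter (fun n => r ∣ n - m), Λ n ≤ badSum r x := by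
  rcases le_or_gt k x with h | h
  · rw [inner_eq hk h]
    linarith [psiAP_nonneg k r m, psiAP_le_badSum x hm]
  · rw [Ioc_eq_empty (by omega), filter_empty, sum_empty]
    exact badSum_nonneg r x

theorem sum_sub_eq (x : ℕ) : ∀ L ≤ x,
    ∑ m ∈ Icc 1 x, Λ m * ((L - m : ℕ) : ℝ) = ∑ y ∈ range L, psiNat y := by
  intro L
  induction L with
  | zero => intro _; simp
  | succ L ih =>
    intro hL
    rw [sum_range_succ, ← ih (by omega), psiNat,
      show ∑ n ∈ Icc 1 L, Λ n = ∑ m ∈ Icc 1 x, if m ≤ L then Λ m else 0 by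
        rw [← sum_filter]
        exact sum_congr (by ext; simp only [mem_filter, mem_Icc]; omega) fun _ _ => rfl,
      ← sum_add_distrib]
    refine sum_congr rfl fun m _ => ?_
    split_ifs with h
    · rw [show L + 1 - m = L - m + 1 by omega]
      push_cast
      ring
    · rw [show L + 1 - m = 0 by omega, show L - m = 0 by omega]
      simp

theorem abs_sum_psiNat_sub_le {x : ℕ} {E : ℝ} (hE : ∀ y ≤ x, |psiNat y - y| ≤ E) :
    ∀ L ≤ x, |(∑ y ∈ range L, psiNat y) - (L : ℝ) ^ 2 / 2| ≤ L * (E + 1) := by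
  intro L
  induction L with
  | zero => intro _; simp
  | succ L ih =>
    intro hL
    have h1 := abs_le.1 (ih (by omega))
    have h2 := abs_le.1 (hE L (by omega))
    rw [sum_range_succ, abs_le]
    push_cast
    constructor <;> nlinarith

/-- **One complementary divisor.** -/
theorem abs_switchSum_sub_le {x T r : ℕ} (hr : 1 ≤ r) (hrT : r * T ≤ x) {E b : ℝ}
    (hE : ∀ a : ℕ, a.Coprime r → ∀ y ≤ x, |psiAP y r a - y / r.totient| ≤ E)
    (hψ : ∀ y ≤ x, |psiNat y - y| ≤ E) (hb : badSum r x ≤ b) :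
    |switchSum x T r - ((x - r * T : ℕ) : ℝ) ^ 2 / 2 / r.totient| ≤
      x * (13 * E + b + 1) + b ^ 2 := by
  obtain ⟨L, hL⟩ : ∃ L, L = x - r * T := ⟨_, rfl⟩
  rw [← hL]
  have hE0 : 0 ≤ E := (abs_nonneg _).trans (hψ 0 (Nat.zero_le x))
  have hb0 : 0 ≤ b := (badSum_nonneg r x).trans hb
  have hφ : (1 : ℝ) ≤ r.totient := Nat.one_le_cast.2 (Nat.totient_pos.2 hr)
  have hx0 : (0 : ℝ) ≤ x := Nat.cast_nonneg x
  have hterm : ∀ m ∈ Icc 1 x,
      |Λ m * (∑ n ∈ (Ioc (m + r * T) x).filter (fun n => r ∣ n - m), Λ n) -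
        Λ m * ((L - m : ℕ) : ℝ) / r.totient| ≤
      2 * E * Λ m + (b + x) * (if ¬ m.Coprime r then Λ m else 0) := by
    intro m hm
    rw [mem_Icc] at hm
    have hΛ : 0 ≤ Λ m := vonMangoldt_nonneg
    rw [mul_div_assoc, ← mul_sub, abs_mul, abs_of_nonneg hΛ]
    split_ifs with hc
    · rw [show 2 * E * Λ m + (b + (x : ℝ)) * 0 = Λ m * (2 * E) by ring]
      refine mul_le_mul_of_nonneg_left ?_ hΛ
      rcases le_or_gt (m + r * T) x with h | h
      · rw [inner_eq (Nat.le_add_right m _) h]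
        have h1 := abs_le.1 (hE m hc x le_rfl)
        have h2 := abs_le.1 (hE m hc (m + r * T) h)
        have e : ((L - m : ℕ) : ℝ) / r.totient =
            (x : ℝ) / r.totient - ((m + r * T : ℕ) : ℝ) / r.totient := by
          rw [show L - m = x - (m + r * T) by omega, Nat.cast_sub h, sub_div]
        rw [e, abs_le]
        constructor <;> linarith
      · rw [Ioc_eq_empty (by omega), filter_empty, sum_empty, show L - m = 0 by omega]
        simp [hE0]
    · refine le_add_of_nonneg_of_le (by positivity) ?_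
      rw [mul_comm (b + (x : ℝ))]
      refine mul_le_mul_of_nonneg_left ?_ hΛ
      have h1 : (0 : ℝ) ≤ ∑ n ∈ (Ioc (m + r * T) x).filter (fun n => r ∣ n - m), Λ n :=
        sum_nonneg fun _ _ => vonMangoldt_nonneg
      have h2 := (inner_le_badSum (x := x) (Nat.le_add_right m (r * T)) hc).trans hb
      have h3 : ((L - m : ℕ) : ℝ) / r.totient ≤ x :=
        (div_le_self (Nat.cast_nonneg _) hφ).trans (Nat.cast_le.2 (by omega))
      have h4 : (0 : ℝ) ≤ ((L - m : ℕ) : ℝ) / r.totient := by positivity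
      rw [abs_le]
      constructor <;> linarith
  have h1 : |switchSum x T r - (∑ m ∈ Icc 1 x, Λ m * ((L - m : ℕ) : ℝ)) / r.totient| ≤
      2 * E * psiNat x + (b + x) * badSum r x := by
    rw [switchSum, sum_div, ← sum_sub_distrib]
    refine (abs_sum_le_sum_abs _ _).trans ((sum_le_sum hterm).trans (le_of_eq ?_))
    rw [sum_add_distrib, ← mul_sum, ← mul_sum, psiNat, badSum, sum_filter]
  have h2 : |(∑ m ∈ Icc 1 x, Λ m * ((L - m : ℕ) : ℝ)) / r.totient -
      (L : ℝ) ^ 2 / 2 / r.totient| ≤ x * (E + 1) := by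
    rw [sum_sub_eq x L (by omega), ← sub_div, abs_div, Nat.abs_cast]
    refine (div_le_self (abs_nonneg _) hφ).trans ((abs_sum_psiNat_sub_le hψ L (by omega)).trans ?_)
    exact mul_le_mul_of_nonneg_right (Nat.cast_le.2 (by omega)) (by linarith)
  have h3 := mul_le_mul_of_nonneg_left (psiNat_le x) (show 0 ≤ 2 * E by linarith)
  have h4 := mul_le_mul_of_nonneg_left hb (show 0 ≤ b + (x : ℝ) by linarith)
  rw [abs_le] at h1 h2 ⊢
  constructor <;> nlinarith

/-- **All complementary divisors.** -/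
theorem abs_sum_offDiag_sub_le {x T : ℕ} (hT : 1 ≤ T) {R E b : ℝ}
    (hR : ((x / T : ℕ) : ℝ) ≤ R)
    (hE : ∀ r : ℕ, 1 ≤ r → (r : ℝ) ≤ R → ∀ a : ℕ, a.Coprime r → ∀ y ≤ x,
      |psiAP y r a - y / r.totient| ≤ E)
    (hψ : ∀ y ≤ x, |psiNat y - y| ≤ E) (hb : ∀ r ∈ Icc 1 x, badSum r x ≤ b) :
    |2 * (∑ q ∈ Ioc T x, offDiag x q) - (x : ℝ) ^ 2 * quadTot ((x : ℝ) / T)| ≤
      2 * R * (x * (13 * E + b + 1) + b ^ 2) := by
  have hE0 : 0 ≤ E := (abs_nonneg _).trans (hψ 0 (Nat.zero_le x))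
  rw [sum_offDiag_eq hT, quadTot, Nat.floor_div_eq_div, mul_sum, mul_sum, ← sum_sub_distrib]
  refine (abs_sum_le_sum_abs _ _).trans ?_
  have hterm : ∀ r ∈ Icc 1 (x / T),
      |2 * switchSum x T r - (x : ℝ) ^ 2 * ((1 - (r : ℝ) / ((x : ℝ) / T)) ^ 2 / r.totient)| ≤
        2 * (x * (13 * E + b + 1) + b ^ 2) := by
    intro r hr
    rw [mem_Icc] at hr
    have hrT : r * T ≤ x := (Nat.le_div_iff_mul_le hT).1 hr.2
    have hrx : r ≤ x := hr.2.trans (Nat.div_le_self x T)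
    have hx0 : (x : ℝ) ≠ 0 := Nat.cast_ne_zero.2 (by omega)
    have h := abs_switchSum_sub_le hr.1 hrT
      (hE r hr.1 ((Nat.cast_le.2 hr.2).trans hR)) hψ (hb r (mem_Icc.2 ⟨hr.1, hrx⟩))
    have e : (x : ℝ) ^ 2 * ((1 - (r : ℝ) / ((x : ℝ) / T)) ^ 2 / r.totient) =
        2 * (((x - r * T : ℕ) : ℝ) ^ 2 / 2 / r.totient) := by
      rw [Nat.cast_sub hrT, Nat.cast_mul]
      field_simp
    rw [e, ← mul_sub, abs_mul, abs_two]
    linarith
  refine (sum_le_card_nsmul _ _ _ hterm).trans ?_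
  rw [Nat.card_Icc, Nat.add_sub_cancel, nsmul_eq_mul]
  refine (mul_le_mul_of_nonneg_right hR ?_).trans (le_of_eq (by ring))
  rcases Nat.eq_zero_or_pos x with rfl | hx
  · push_cast
    nlinarith
  · have hb0 : 0 ≤ b := (badSum_nonneg 1 x).trans (hb 1 (mem_Icc.2 ⟨le_rfl, hx⟩))
    positivity

end FA.MontgomeryHooley

end
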